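/-
P-ORD (helper17): the ABSTRACT CHART LIFT (findings #522 (L2), (L7), (L8) in the simplified form
of #525 (1)).  Mathlib only.

Setting: `A` a commutative ring, `E` a field over `A`, `B`, `B'` two `A`-subalgebras of `E`
(the two charts), `x ∈ B` with `x⁻¹ ∈ B'`.  Assume that `B` is spanned over `A[x]` by finitely
many elements `b ∈ s` and that `x⁻ᵐ b ∈ B'` for all of them.  Then for every `n ≥ m - 1`

* `clSum B B' x n = B + xⁿ B'` contains `B[1/x]` (`chartLift_adjoin`): the Čech `H¹` of the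
  two charts with coefficients in `O(n D_∞)` vanishes;
* glued pairs lift (`chartLift`): if `f ∈ B`, `f' ∈ B'` and `f - xⁿ f' = ϖ t` with
  `t ∈ B[1/x]`, then there are `c ∈ B`, `c' ∈ B'` with `f - ϖ c = xⁿ (f' + ϖ c')`, i.e.
  `g := f - ϖ c ∈ B ∩ xⁿ B'` reduces to `f` in `B / ϖ` and `x⁻ⁿ g` reduces to `f'` in `B' / ϖ`.

The exponent `m` exists as soon as the generators lie in `B'[x]` (`exists_pow_inv_mul_mem`).
-/
import Mathlib

set_option autoImplicit false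

namespace Fermat.Agent.H17.ORD

open Polynomial

section

variable {A E : Type*} [CommRing A] [Field E] [Algebra A E]

/-- `B + xⁿ B'` as an `A`-submodule of `E`. -/
def clSum (B B' : Subalgebra A E) (x : E) (n : ℕ) : Submodule A E :=
  Subalgebra.toSubmodule B ⊔ (Subalgebra.toSubmodule B').map (LinearMap.mulLeft A (x ^ n))

theorem mem_clSum_iff (B B' : Subalgebra A E) (x : E) (n : ℕ) (t : E) :
    t ∈ clSum B B' x n ↔ ∃ c ∈ B, ∃ c' ∈ B', t = c + x ^ n * c' := by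
  unfold clSum
  rw [Submodule.mem_sup]
  constructor
  · rintro ⟨c, hc, y, hy, rfl⟩
    rw [Submodule.mem_map] at hy
    obtain ⟨c', hc', rfl⟩ := hy
    exact ⟨c, hc, c', hc', rfl⟩
  · rintro ⟨c, hc, c', hc', rfl⟩
    exact ⟨c, hc, x ^ n * c', Submodule.mem_map.mpr ⟨c', hc', rfl⟩, rfl⟩

theorem mem_clSum_of_mem (B B' : Subalgebra A E) (x : E) (n : ℕ) {c : E} (hc : c ∈ B) :
    c ∈ clSum B B' x n :=
  (mem_clSum_iff B B' x n c).mpr ⟨c, hc, 0, B'.zero_mem, by rw [mul_zero, add_zero]⟩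

theorem mul_mem_clSum (B B' : Subalgebra A E) (x : E) (n : ℕ) {c' : E} (hc' : c' ∈ B') :
    x ^ n * c' ∈ clSum B B' x n :=
  (mem_clSum_iff B B' x n _).mpr ⟨0, B.zero_mem, c', hc', by rw [zero_add]⟩

/-- elements of `B[1/x]` are fractions `z / xᵏ`, `z ∈ B`. -/
theorem exists_eq_mul_inv_pow (B : Subalgebra A E) (x : E) (hx : x ∈ B) (hx0 : x ≠ 0) (t : E)
    (ht : t ∈ Algebra.adjoin A ((B : Set E) ∪ {x⁻¹})) :
    ∃ z ∈ B, ∃ k : ℕ, t = z * x⁻¹ ^ k := by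
  induction ht using Algebra.adjoin_induction with
  | mem y hy =>
    rcases hy with hy | hy
    · exact ⟨y, hy, 0, by rw [pow_zero, mul_one]⟩
    · rw [Set.mem_singleton_iff] at hy
      exact ⟨1, B.one_mem, 1, by rw [hy, pow_one, one_mul]⟩
  | algebraMap r => exact ⟨algebraMap A E r, B.algebraMap_mem r, 0, by rw [pow_zero, mul_one]⟩
  | add y z _ _ hy hz =>
    obtain ⟨a, ha, k, rfl⟩ := hy
    obtain ⟨b, hb, l, rfl⟩ := hz
    refine ⟨a * x ^ l + b * x ^ k,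
      B.add_mem (B.mul_mem ha (B.pow_mem hx l)) (B.mul_mem hb (B.pow_mem hx k)), k + l, ?_⟩
    have h1 : x ^ l * x⁻¹ ^ (k + l) = x⁻¹ ^ k := by
      rw [pow_add, mul_comm (x⁻¹ ^ k), ← mul_assoc, ← mul_pow, mul_inv_cancel₀ hx0, one_pow,
        one_mul]
    have h2 : x ^ k * x⁻¹ ^ (k + l) = x⁻¹ ^ l := by
      rw [pow_add, ← mul_assoc, ← mul_pow, mul_inv_cancel₀ hx0, one_pow, one_mul]
    rw [add_mul, mul_assoc, mul_assoc, h1, h2]
  | mul y z _ _ hy hz =>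
    obtain ⟨a, ha, k, rfl⟩ := hy
    obtain ⟨b, hb, l, rfl⟩ := hz
    exact ⟨a * b, B.mul_mem ha hb, k + l, by rw [pow_add]; ring⟩

/-- the monomials `xʲ x⁻ᵏ b` lie in `B + xⁿ B'` when `x⁻ᵐ b ∈ B'` and `n ≥ m - 1`. -/
theorem monomial_mem_clSum (B B' : Subalgebra A E) (x : E) (hx0 : x ≠ 0) (hx : x ∈ B)
    (hx' : x⁻¹ ∈ B') (b : E) (hb : b ∈ B) (m : ℕ) (hm : x⁻¹ ^ m * b ∈ B') (n : ℕ)
    (hn : m ≤ n + 1) (j k : ℕ) : x ^ j * b * x⁻¹ ^ k ∈ clSum B B' x n := by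
  have hxx : ∀ i : ℕ, x ^ i * x⁻¹ ^ i = 1 := fun i => by
    rw [← mul_pow, mul_inv_cancel₀ hx0, one_pow]
  rcases le_or_gt k j with h | h
  · obtain ⟨r, rfl⟩ := Nat.exists_eq_add_of_le h
    have e : x ^ (k + r) * b * x⁻¹ ^ k = x ^ r * b := by
      calc x ^ (k + r) * b * x⁻¹ ^ k = (x ^ k * x⁻¹ ^ k) * (x ^ r * b) := by rw [pow_add]; ring
        _ = x ^ r * b := by rw [hxx, one_mul]
    rw [e]
    exact mem_clSum_of_mem B B' x n (B.mul_mem (B.pow_mem hx r) hb)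
  · obtain ⟨r, rfl⟩ := Nat.exists_eq_add_of_lt h
    obtain ⟨s, hs⟩ := Nat.exists_eq_add_of_le hn
    have e : x ^ j * b * x⁻¹ ^ (j + r + 1) = x ^ n * (x⁻¹ ^ (s + r) * (x⁻¹ ^ m * b)) := by
      have h1 : x⁻¹ ^ (r + 1) = x ^ n * x⁻¹ ^ (n + 1 + r) := by
        calc x⁻¹ ^ (r + 1) = (x ^ n * x⁻¹ ^ n) * x⁻¹ ^ (r + 1) := by rw [hxx, one_mul]
          _ = x ^ n * x⁻¹ ^ (n + 1 + r) := by rw [pow_add, pow_add, pow_add]; ring
      calc x ^ j * b * x⁻¹ ^ (j + r + 1)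
          = (x ^ j * x⁻¹ ^ j) * (x⁻¹ ^ (r + 1) * b) := by rw [add_assoc, pow_add]; ring
        _ = x⁻¹ ^ (r + 1) * b := by rw [hxx, one_mul]
        _ = x ^ n * x⁻¹ ^ (n + 1 + r) * b := by rw [h1]
        _ = x ^ n * (x⁻¹ ^ (s + r) * (x⁻¹ ^ m * b)) := by
            rw [hs, pow_add, pow_add, pow_add]; ring
    rw [e]
    exact mul_mem_clSum B B' x n (B'.mul_mem (B'.pow_mem hx' _) hm)

/-- **`B[1/x] ⊆ B + xⁿ B'`**, fraction form: `B` spanned over `A[x]` by the finite set `s`,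
`x⁻ᵐ b ∈ B'` for `b ∈ s`, `n ≥ m - 1`. -/
theorem chartLift_frac (B B' : Subalgebra A E) (x : E) (hx0 : x ≠ 0) (hx : x ∈ B)
    (hx' : x⁻¹ ∈ B') (s : Set E) (hs : s ⊆ (B : Set E))
    (hspan : (B : Set E) ⊆ Submodule.span (Algebra.adjoin A ({x} : Set E)) s)
    (m : ℕ) (hm : ∀ b ∈ s, x⁻¹ ^ m * b ∈ B') (n : ℕ) (hn : m ≤ n + 1)
    (z : E) (hz : z ∈ B) (k : ℕ) : z * x⁻¹ ^ k ∈ clSum B B' x n := by
  have key : ∀ y ∈ Submodule.span (Algebra.adjoin A ({x} : Set E)) s,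
      ∀ j k : ℕ, x ^ j * y * x⁻¹ ^ k ∈ clSum B B' x n := by
    intro y hy
    induction hy using Submodule.span_induction with
    | mem b hb =>
      intro j k
      exact monomial_mem_clSum B B' x hx0 hx hx' b (hs hb) m (hm b hb) n hn j k
    | zero =>
      intro j k
      rw [mul_zero, zero_mul]
      exact Submodule.zero_mem _
    | add y z _ _ hy hz =>
      intro j k
      rw [mul_add, add_mul]
      exact Submodule.add_mem _ (hy j k) (hz j k)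
    | smul r y _ hy =>
      intro j k
      obtain ⟨p, hp⟩ : ∃ p : A[X], aeval x p = (r : E) := by
        have h2 : (r : E) ∈ (aeval (R := A) x).range := by
          rw [← Algebra.adjoin_singleton_eq_range_aeval]
          exact r.2
        exact h2
      have e : x ^ j * (r • y) * x⁻¹ ^ k =
          ∑ i ∈ Finset.range (p.natDegree + 1), p.coeff i • (x ^ (j + i) * y * x⁻¹ ^ k) := by
        have h1 : r • y = (r : E) * y := rfl
        rw [h1, ← hp, aeval_eq_sum_range, Finset.sum_mul, Finset.mul_sum, Finset.sum_mul]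
        refine Finset.sum_congr rfl (fun i _ => ?_)
        rw [Algebra.smul_def, Algebra.smul_def, pow_add]
        ring
      rw [e]
      exact Submodule.sum_mem _ (fun i _ => Submodule.smul_mem _ _ (hy (j + i) k))
  have h := key z (hspan hz) 0 k
  rwa [pow_zero, one_mul] at h

/-- **`B[1/x] ⊆ B + xⁿ B'`** (vanishing of the Čech `H¹` of the two charts). -/
theorem chartLift_adjoin (B B' : Subalgebra A E) (x : E) (hx0 : x ≠ 0) (hx : x ∈ B)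
    (hx' : x⁻¹ ∈ B') (s : Set E) (hs : s ⊆ (B : Set E))
    (hspan : (B : Set E) ⊆ Submodule.span (Algebra.adjoin A ({x} : Set E)) s)
    (m : ℕ) (hm : ∀ b ∈ s, x⁻¹ ^ m * b ∈ B') (n : ℕ) (hn : m ≤ n + 1)
    (t : E) (ht : t ∈ Algebra.adjoin A ((B : Set E) ∪ {x⁻¹})) :
    ∃ c ∈ B, ∃ c' ∈ B', t = c + x ^ n * c' := by
  obtain ⟨z, hz, k, rfl⟩ := exists_eq_mul_inv_pow B x hx hx0 t ht
  exact (mem_clSum_iff B B' x n _).mp
    (chartLift_frac B B' x hx0 hx hx' s hs hspan m hm n hn z hz k)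

/-- **LIFT of glued pairs**: `f ∈ B`, `f' ∈ B'` with `f ≡ xⁿ f'` modulo `ϖ B[1/x]`; then some
`g ∈ B ∩ xⁿ B'` has `g ≡ f` modulo `ϖ B` and `x⁻ⁿ g ≡ f'` modulo `ϖ B'`. -/
theorem chartLift (B B' : Subalgebra A E) (x : E) (hx0 : x ≠ 0) (hx : x ∈ B)
    (hx' : x⁻¹ ∈ B') (s : Set E) (hs : s ⊆ (B : Set E))
    (hspan : (B : Set E) ⊆ Submodule.span (Algebra.adjoin A ({x} : Set E)) s)
    (m : ℕ) (hm : ∀ b ∈ s, x⁻¹ ^ m * b ∈ B') (n : ℕ) (hn : m ≤ n + 1)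
    (ϖ : E) (f f' t : E) (ht : t ∈ Algebra.adjoin A ((B : Set E) ∪ {x⁻¹}))
    (h : f - x ^ n * f' = ϖ * t) :
    ∃ c ∈ B, ∃ c' ∈ B', f - ϖ * c = x ^ n * (f' + ϖ * c') := by
  obtain ⟨c, hc, c', hc', rfl⟩ := chartLift_adjoin B B' x hx0 hx hx' s hs hspan m hm n hn t ht
  refine ⟨c, hc, c', hc', ?_⟩
  linear_combination h

/-- the same with the lift `g` and its two congruences made explicit -/
theorem chartLift_exists (B B' : Subalgebra A E) (x : E) (hx0 : x ≠ 0) (hx : x ∈ B)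
    (hx' : x⁻¹ ∈ B') (s : Set E) (hs : s ⊆ (B : Set E))
    (hspan : (B : Set E) ⊆ Submodule.span (Algebra.adjoin A ({x} : Set E)) s)
    (m : ℕ) (hm : ∀ b ∈ s, x⁻¹ ^ m * b ∈ B') (n : ℕ) (hn : m ≤ n + 1)
    (ϖ : A) (f f' t : E) (hf : f ∈ B) (hf' : f' ∈ B')
    (ht : t ∈ Algebra.adjoin A ((B : Set E) ∪ {x⁻¹}))
    (h : f - x ^ n * f' = algebraMap A E ϖ * t) :
    ∃ g g' : E, g ∈ B ∧ g' ∈ B' ∧ g = x ^ n * g' ∧
      (∃ c ∈ B, g = f - algebraMap A E ϖ * c) ∧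
      ∃ c' ∈ B', g' = f' + algebraMap A E ϖ * c' := by
  obtain ⟨c, hc, c', hc', e⟩ :=
    chartLift B B' x hx0 hx hx' s hs hspan m hm n hn (algebraMap A E ϖ) f f' t ht h
  exact ⟨f - algebraMap A E ϖ * c, f' + algebraMap A E ϖ * c',
    B.sub_mem hf (B.mul_mem (B.algebraMap_mem ϖ) hc),
    B'.add_mem hf' (B'.mul_mem (B'.algebraMap_mem ϖ) hc'), e, ⟨c, hc, rfl⟩, ⟨c', hc', rfl⟩⟩

/-- **the exponent `m`**: finitely many elements of `B'[x]` are moved into `B'` by one power of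
`x⁻¹`. -/
theorem exists_pow_inv_mul_mem (B' : Subalgebra A E) (x : E) (hx0 : x ≠ 0) (hx' : x⁻¹ ∈ B')
    (s : Finset E) (hs : ∀ b ∈ s, b ∈ Algebra.adjoin A ((B' : Set E) ∪ {x})) :
    ∃ m : ℕ, ∀ b ∈ s, x⁻¹ ^ m * b ∈ B' := by
  classical
  induction s using Finset.induction_on with
  | empty => exact ⟨0, fun b hb => absurd hb (Finset.notMem_empty b)⟩
  | insert a s _ ih =>
    obtain ⟨m, hm⟩ := ih (fun b hb => hs b (Finset.mem_insert_of_mem hb))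
    have ha := hs a (Finset.mem_insert_self a s)
    have hxx : (x⁻¹)⁻¹ = x := inv_inv x
    obtain ⟨z, hz, k, hzk⟩ := exists_eq_mul_inv_pow B' x⁻¹ hx' (inv_ne_zero hx0) a
      (by rw [hxx]; exact ha)
    rw [hxx] at hzk
    refine ⟨m + k, fun b hb => ?_⟩
    rcases Finset.mem_insert.mp hb with rfl | hb
    · have e : x⁻¹ ^ (m + k) * b = x⁻¹ ^ m * z := by
        rw [hzk, pow_add]
        calc x⁻¹ ^ m * x⁻¹ ^ k * (z * x ^ k) = x⁻¹ ^ m * z * (x ^ k * x⁻¹ ^ k) := by ring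
          _ = x⁻¹ ^ m * z := by rw [← mul_pow, mul_inv_cancel₀ hx0, one_pow, mul_one]
      rw [e]
      exact B'.mul_mem (B'.pow_mem hx' m) hz
    · have e : x⁻¹ ^ (m + k) * b = x⁻¹ ^ k * (x⁻¹ ^ m * b) := by rw [pow_add]; ring
      rw [e]
      exact B'.mul_mem (B'.pow_mem hx' k) (hm b hb)

/-- **ABSTRACT CHART LIFT, packaged**: two charts `B ∋ x`, `B' ∋ x⁻¹` with `B ⊆ B'[x]`, `B`
spanned over `A[x]` by a finite set.  There is `m` such that for all `n ≥ m - 1`: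
`B[1/x] = B + xⁿ B'`. -/
theorem chartLift_of_finite (B B' : Subalgebra A E) (x : E) (hx0 : x ≠ 0) (hx : x ∈ B)
    (hx' : x⁻¹ ∈ B') (s : Finset E) (hs : (s : Set E) ⊆ (B : Set E))
    (hspan : (B : Set E) ⊆ Submodule.span (Algebra.adjoin A ({x} : Set E)) (s : Set E))
    (hBB' : (B : Set E) ⊆ Algebra.adjoin A ((B' : Set E) ∪ {x})) :
    ∃ m : ℕ, ∀ n : ℕ, m ≤ n + 1 → ∀ t ∈ Algebra.adjoin A ((B : Set E) ∪ {x⁻¹}),
      ∃ c ∈ B, ∃ c' ∈ B', t = c + x ^ n * c' := by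
  obtain ⟨m, hm⟩ := exists_pow_inv_mul_mem B' x hx0 hx' s (fun b hb => hBB' (hs hb))
  exact ⟨m, fun n hn t ht =>
    chartLift_adjoin B B' x hx0 hx hx' (s : Set E) hs hspan m (fun b hb => hm b hb) n hn t ht⟩

/-- **`B[1/x] ⊆ B + xⁿ B'`**, in the form `xᵏ t ∈ B`. -/
theorem chartLift_of_pow_mul_mem (B B' : Subalgebra A E) (x : E) (hx0 : x ≠ 0) (hx : x ∈ B)
    (hx' : x⁻¹ ∈ B') (s : Set E) (hs : s ⊆ (B : Set E))
    (hspan : (B : Set E) ⊆ Submodule.span (Algebra.adjoin A ({x} : Set E)) s)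
    (m : ℕ) (hm : ∀ b ∈ s, x⁻¹ ^ m * b ∈ B') (n : ℕ) (hn : m ≤ n + 1)
    (t : E) (k : ℕ) (ht : x ^ k * t ∈ B) :
    ∃ c ∈ B, ∃ c' ∈ B', t = c + x ^ n * c' := by
  have e : t = (x ^ k * t) * x⁻¹ ^ k := by
    calc t = (x ^ k * x⁻¹ ^ k) * t := by
          rw [← mul_pow, mul_inv_cancel₀ hx0, one_pow, one_mul]
      _ = (x ^ k * t) * x⁻¹ ^ k := by ring
  have h := chartLift_frac B B' x hx0 hx hx' s hs hspan m hm n hn (x ^ k * t) ht k
  rw [← e] at h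
  exact (mem_clSum_iff B B' x n t).mp h

/-- **LIFT of glued pairs**, in the form `xᵏ t ∈ B`: `f ∈ B`, `f' ∈ B'`, `f - xⁿ f' = ϖ t`;
then some `F ∈ B` has `F - f ∈ ϖ B` and `x⁻ⁿ F - f' ∈ ϖ B'` (in particular `x⁻ⁿ F ∈ B'`). -/
theorem chartLift_pair (B B' : Subalgebra A E) (x : E) (hx0 : x ≠ 0) (hx : x ∈ B)
    (hx' : x⁻¹ ∈ B') (s : Set E) (hs : s ⊆ (B : Set E))
    (hspan : (B : Set E) ⊆ Submodule.span (Algebra.adjoin A ({x} : Set E)) s)
    (m : ℕ) (hm : ∀ b ∈ s, x⁻¹ ^ m * b ∈ B') (n : ℕ) (hn : m ≤ n + 1)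
    (ϖ : A) (f f' t : E) (hf : f ∈ B) (hf' : f' ∈ B') (k : ℕ) (ht : x ^ k * t ∈ B)
    (h : f - x ^ n * f' = algebraMap A E ϖ * t) :
    ∃ F ∈ B, x⁻¹ ^ n * F ∈ B' ∧ (∃ c ∈ B, F - f = algebraMap A E ϖ * c) ∧
      ∃ c' ∈ B', x⁻¹ ^ n * F - f' = algebraMap A E ϖ * c' := by
  obtain ⟨c, hc, c', hc', rfl⟩ :=
    chartLift_of_pow_mul_mem B B' x hx0 hx hx' s hs hspan m hm n hn t k ht
  have hxx : x⁻¹ ^ n * x ^ n = 1 := by rw [← mul_pow, inv_mul_cancel₀ hx0, one_pow]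
  have e : x⁻¹ ^ n * (f - algebraMap A E ϖ * c) = f' + algebraMap A E ϖ * c' := by
    have h1 : f - algebraMap A E ϖ * c = x ^ n * (f' + algebraMap A E ϖ * c') := by
      linear_combination h
    rw [h1, ← mul_assoc, hxx, one_mul]
  refine ⟨f - algebraMap A E ϖ * c, B.sub_mem hf (B.mul_mem (B.algebraMap_mem ϖ) hc), ?_,
    ⟨-c, B.neg_mem hc, by ring⟩, ⟨c', hc', ?_⟩⟩
  · rw [e]
    exact B'.add_mem hf' (B'.mul_mem (B'.algebraMap_mem ϖ) hc')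
  · rw [e]
    ring

/-- the polynomial form of the finiteness hypothesis (the shape of
`Fermat.Agent.H85.klc_finite'`) gives the span form -/
theorem span_of_poly (B : Subalgebra A E) (x : E) (s : Finset E)
    (hpoly : ∀ r ∈ B, ∃ p : E → A[X], r = ∑ b ∈ s, aeval x (p b) * b) :
    (B : Set E) ⊆ Submodule.span (Algebra.adjoin A ({x} : Set E)) (s : Set E) := by
  intro r hr
  obtain ⟨p, hp⟩ := hpoly r hr
  rw [SetLike.mem_coe, hp]
  refine Submodule.sum_mem _ (fun b hb => ?_)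
  have hmem : aeval x (p b) ∈ Algebra.adjoin A ({x} : Set E) := by
    rw [Algebra.adjoin_singleton_eq_range_aeval]
    exact ⟨p b, rfl⟩
  have e : aeval x (p b) * b = (⟨aeval x (p b), hmem⟩ : Algebra.adjoin A ({x} : Set E)) • b :=
    rfl
  rw [e]
  exact Submodule.smul_mem _ _ (Submodule.subset_span (Finset.mem_coe.mpr hb))

/-- **ABSTRACT CHART LIFT, packaged, polynomial form of the finiteness hypothesis.** -/
theorem chartLift_of_poly (B B' : Subalgebra A E) (x : E) (hx0 : x ≠ 0) (hx : x ∈ B)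
    (hx' : x⁻¹ ∈ B') (s : Finset E) (hs : ∀ b ∈ s, b ∈ B)
    (hpoly : ∀ r ∈ B, ∃ p : E → A[X], r = ∑ b ∈ s, aeval x (p b) * b)
    (hBB' : ∀ b ∈ s, b ∈ Algebra.adjoin A ((B' : Set E) ∪ {x})) :
    ∃ m : ℕ, ∀ n : ℕ, m ≤ n + 1 → ∀ t ∈ Algebra.adjoin A ((B : Set E) ∪ {x⁻¹}),
      ∃ c ∈ B, ∃ c' ∈ B', t = c + x ^ n * c' := by
  obtain ⟨m, hm⟩ := exists_pow_inv_mul_mem B' x hx0 hx' s hBB'
  exact ⟨m, fun n hn t ht =>
    chartLift_adjoin B B' x hx0 hx hx' (s : Set E) (fun b hb => hs b (Finset.mem_coe.mp hb))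
      (span_of_poly B x s hpoly) m (fun b hb => hm b (Finset.mem_coe.mp hb)) n hn t ht⟩

end

end Fermat.Agent.H17.ORD
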