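/-
P-ORD (helper17): the CHART LIFT for the two charts `B(x)`, `B(x⁻¹)` of a function field over a
discrete valuation ring (instance of `Fermat.Agent.H17.ORD.ChartLift`; findings #522, #525).

`A` a discrete valuation ring, `E` a field of characteristic `0` over `A`, `x ∈ E`
transcendental over `A`, `E` finite over `K₀(x)`.  With `B = chartClosure A E x` (integral
closure of `A[x]`) and `B' = chartClosure A E x⁻¹`:

* `chartClosure_lift` : there is `m` such that for all `n ≥ m - 1` every `t` with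
  `xᵏ t ∈ B` for some `k` (i.e. `t ∈ B[1/x]`) is `c + xⁿ c'`, `c ∈ B`, `c' ∈ B'`
  (vanishing of the Čech `H¹` of the two charts with coefficients in `O(n D_∞)`);
* `chartClosure_lift_pair` : glued pairs lift: `f ∈ B`, `f' ∈ B'`, `f - xⁿ f' = ϖ t` with
  `t ∈ B[1/x]`; then some `F ∈ B ∩ xⁿ B'` has `F - f ∈ ϖ B` and `x⁻ⁿ F - f' ∈ ϖ B'`.

No hypothesis beyond transcendence and finiteness: the finiteness of `B` over `A[x]` is
`Fermat.Agent.H85.klc_finite'`, the overlap `B ⊆ B'[x]` is `Fermat.Agent.H85.klc_overlap`.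
-/
import Fermat.Agent.H17.ORD.ChartLift
import Fermat.Agent.H85.KLChart

set_option autoImplicit false

namespace Fermat.Agent.H17.ORD

open Polynomial Fermat.Agent.H22.KL

section

variable {A : Type} [CommRing A] [IsDomain A] [IsDiscreteValuationRing A]
  {E : Type} [Field E] [Algebra A E] [CharZero E]

omit [IsDomain A] [IsDiscreteValuationRing A] [CharZero E] in
theorem self_mem_chartClosure (x : E) : x ∈ chartClosure A E x := by
  have h : x ∈ chartRing A E x := Algebra.subset_adjoin (Set.mem_singleton x)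
  exact (Fermat.Agent.H85.klc_mem_chartClosure_iff x x).mpr
    (isIntegral_algebraMap (R := ↥(chartRing A E x)) (A := E) (x := ⟨x, h⟩))

/-- the data of the chart lift: generators of `B(x)` over `A[x]` and the exponent `m`. -/
theorem chartClosure_lift_data {x : E} (hx : Transcendental A x)
    (hfin : ∃ (n : ℕ), Nonempty (Module.Basis (Fin n) (chartField A E x) E)) :
    ∃ (s : Finset E) (m : ℕ), (s : Set E) ⊆ (chartClosure A E x : Set E) ∧
      (chartClosure A E x : Set E) ⊆
        Submodule.span (Algebra.adjoin A ({x} : Set E)) (s : Set E) ∧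
      ∀ b ∈ (s : Set E), x⁻¹ ^ m * b ∈ chartClosure A E x⁻¹ := by
  classical
  have hx0 : x ≠ 0 := by
    rintro rfl
    exact hx isAlgebraic_zero
  obtain ⟨s, hs, hpoly⟩ := Fermat.Agent.H85.klc_finite' hx hfin
  have hk : ∀ b ∈ s, ∃ k : ℕ, x⁻¹ ^ k * b ∈ chartClosure A E x⁻¹ := fun b hb =>
    Fermat.Agent.H85.klc_overlap hx0 b (hs b hb)
  have hm : ∃ m : ℕ, ∀ b ∈ s, x⁻¹ ^ m * b ∈ chartClosure A E x⁻¹ := by
    have hxi : x⁻¹ ∈ chartClosure A E x⁻¹ := self_mem_chartClosure x⁻¹
    clear hs hpoly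
    induction s using Finset.induction_on with
    | empty => exact ⟨0, fun b hb => absurd hb (Finset.notMem_empty b)⟩
    | insert a s _ ih =>
      obtain ⟨m, hm⟩ := ih (fun b hb => hk b (Finset.mem_insert_of_mem hb))
      obtain ⟨k, hk'⟩ := hk a (Finset.mem_insert_self a s)
      refine ⟨m + k, fun b hb => ?_⟩
      rcases Finset.mem_insert.mp hb with rfl | hb
      · have e : x⁻¹ ^ (m + k) * b = x⁻¹ ^ m * (x⁻¹ ^ k * b) := by rw [pow_add]; ring
        rw [e]
        exact Subalgebra.mul_mem _ (Subalgebra.pow_mem _ hxi m) hk'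
      · have e : x⁻¹ ^ (m + k) * b = x⁻¹ ^ k * (x⁻¹ ^ m * b) := by rw [pow_add]; ring
        rw [e]
        exact Subalgebra.mul_mem _ (Subalgebra.pow_mem _ hxi k) (hm b hb)
  obtain ⟨m, hm⟩ := hm
  exact ⟨s, m, fun b hb => hs b (Finset.mem_coe.mp hb),
    span_of_poly (chartClosure A E x) x s hpoly, fun b hb => hm b (Finset.mem_coe.mp hb)⟩

/-- **CHART LIFT for `B(x)`, `B(x⁻¹)`**: `B[1/x] = B + xⁿ B'` for all `n ≥ m - 1`. -/
theorem chartClosure_lift {x : E} (hx : Transcendental A x)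
    (hfin : ∃ (n : ℕ), Nonempty (Module.Basis (Fin n) (chartField A E x) E)) :
    ∃ m : ℕ, ∀ n : ℕ, m ≤ n + 1 → ∀ (t : E) (k : ℕ), x ^ k * t ∈ chartClosure A E x →
      ∃ c ∈ chartClosure A E x, ∃ c' ∈ chartClosure A E x⁻¹, t = c + x ^ n * c' := by
  have hx0 : x ≠ 0 := by
    rintro rfl
    exact hx isAlgebraic_zero
  obtain ⟨s, m, hs, hspan, hm⟩ := chartClosure_lift_data hx hfin
  exact ⟨m, fun n hn t k ht =>
    chartLift_of_pow_mul_mem (chartClosure A E x) (chartClosure A E x⁻¹) x hx0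
      (self_mem_chartClosure x) (self_mem_chartClosure x⁻¹) (s : Set E) hs hspan m hm n hn t k
      ht⟩

/-- **LIFT of glued pairs for `B(x)`, `B(x⁻¹)`.** -/
theorem chartClosure_lift_pair {x : E} (hx : Transcendental A x)
    (hfin : ∃ (n : ℕ), Nonempty (Module.Basis (Fin n) (chartField A E x) E)) :
    ∃ m : ℕ, ∀ n : ℕ, m ≤ n + 1 → ∀ (ϖ : A) (f f' t : E) (k : ℕ),
      f ∈ chartClosure A E x → f' ∈ chartClosure A E x⁻¹ → x ^ k * t ∈ chartClosure A E x →
      f - x ^ n * f' = algebraMap A E ϖ * t →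
      ∃ F ∈ chartClosure A E x, x⁻¹ ^ n * F ∈ chartClosure A E x⁻¹ ∧
        (∃ c ∈ chartClosure A E x, F - f = algebraMap A E ϖ * c) ∧
        ∃ c' ∈ chartClosure A E x⁻¹, x⁻¹ ^ n * F - f' = algebraMap A E ϖ * c' := by
  have hx0 : x ≠ 0 := by
    rintro rfl
    exact hx isAlgebraic_zero
  obtain ⟨s, m, hs, hspan, hm⟩ := chartClosure_lift_data hx hfin
  exact ⟨m, fun n hn ϖ f f' t k hf hf' ht h =>
    chartLift_pair (chartClosure A E x) (chartClosure A E x⁻¹) x hx0
      (self_mem_chartClosure x) (self_mem_chartClosure x⁻¹) (s : Set E) hs hspan m hm n hn ϖ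
      f f' t hf hf' k ht h⟩

end

end Fermat.Agent.H17.ORD
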