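/-
P-ORD (S33), block B1-ANCHOR (helper17): DICTIONARY between the `ℚ̄`-charts
`nmChart N A y` of helper84's nodal model (integral closure of the subring `A[y] ⊆ F`) and the
chart language `chartClosure ↥A F y` of `Fermat.Agent.H22.KL` (for the `↥A`-algebra `F`), and the
OVERLAP of the two charts at the `ℚ̄`-level.

* `crtAlg A` : the `↥A`-algebra structure of `F = FLb N` (a `def`, use `letI := crtAlg A`);
* `crt_chartRing_toSubring` : `A[y]` in both languages;
* `crt_mem_nmChart_iff` : `f ∈ nmChart N A y ↔ f ∈ chartClosure ↥A F y`;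
* `crt_overlap` : for `b ∈ B̄(y)` some `y⁻ᵏ b` lies in `B̄(y⁻¹)`.
-/
import Fermat.Agent.H84.ORD.NodalSpecFinal
import Fermat.Agent.H85.KLChart

set_option autoImplicit false
set_option linter.unusedSectionVars false
set_option linter.style.haveILetI false

noncomputable section

open AlgebraicCurve ModularCurve Polynomial

namespace Fermat.Agent.H17.ORD

open Fermat.Agent.H72.FF Fermat.Agent.H66 Fermat.Agent.H84.ORD Fermat.Agent.H22.KL

variable {N : ℕ} (A : ValuationSubring Qb)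

/-- the `↥A`-algebra structure of `F = FLb N` -/
@[reducible] def crtAlg : Algebra ↥A (FLb N) :=
  ((algebraMap Qb (FLb N)).comp A.subtype).toAlgebra

theorem crt_algebraMap_apply (c : ↥A) :
    letI := crtAlg (N := N) A
    algebraMap ↥A (FLb N) c = algebraMap Qb (FLb N) (c : Qb) := rfl

/-- `A[y]` in both languages -/
theorem crt_chartRing_toSubring (y : FLb N) :
    letI := crtAlg (N := N) A
    (chartRing ↥A (FLb N) y).toSubring = nmPoly N A y := by
  letI := crtAlg (N := N) A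
  rw [chartRing, Algebra.adjoin_eq_ring_closure, nmPoly]
  congr 1
  congr 1
  ext f
  constructor
  · rintro ⟨c, rfl⟩
    exact ⟨(c : Qb), c.2, rfl⟩
  · rintro ⟨c, hc, rfl⟩
    exact ⟨⟨c, hc⟩, rfl⟩

theorem crt_mem_chartRing_iff (y f : FLb N) :
    letI := crtAlg (N := N) A
    f ∈ chartRing ↥A (FLb N) y ↔ f ∈ nmPoly N A y := by
  letI := crtAlg (N := N) A
  rw [← crt_chartRing_toSubring A y]
  rfl

/-- the charts in both languages -/
theorem crt_mem_nmChart_iff (y f : FLb N) :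
    letI := crtAlg (N := N) A
    f ∈ nmChart N A y ↔ f ∈ chartClosure ↥A (FLb N) y := by
  letI := crtAlg (N := N) A
  rw [Fermat.Agent.H85.klc_mem_chartClosure_iff, mem_nmChart_iff]
  constructor
  · rintro ⟨q, hq, hq0⟩
    let ι : ↥(nmPoly N A y) →+* ↥(chartRing ↥A (FLb N) y) :=
      { toFun := fun g => ⟨g.1, (crt_mem_chartRing_iff A y g.1).2 g.2⟩
        map_one' := rfl
        map_mul' := fun _ _ => rfl
        map_zero' := rfl
        map_add' := fun _ _ => rfl }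
    refine ⟨q.map ι, hq.map _, ?_⟩
    rw [Polynomial.eval₂_map]
    exact hq0
  · rintro ⟨q, hq, hq0⟩
    let ι : ↥(chartRing ↥A (FLb N) y) →+* ↥(nmPoly N A y) :=
      { toFun := fun g => ⟨g.1, (crt_mem_chartRing_iff A y g.1).1 g.2⟩
        map_one' := rfl
        map_mul' := fun _ _ => rfl
        map_zero' := rfl
        map_add' := fun _ _ => rfl }
    refine ⟨q.map ι, hq.map _, ?_⟩
    rw [Polynomial.eval₂_map]
    exact hq0

/-- **OVERLAP** of the two charts : for `b ∈ B̄(y)` some `y⁻ᵏ b` lies in `B̄(y⁻¹)`. -/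
theorem crt_overlap {y : FLb N} (hy : y ≠ 0) {b : FLb N} (hb : b ∈ nmChart N A y) :
    ∃ k : ℕ, y⁻¹ ^ k * b ∈ nmChart N A y⁻¹ := by
  letI := crtAlg (N := N) A
  rw [crt_mem_nmChart_iff] at hb
  obtain ⟨k, hk⟩ := Fermat.Agent.H85.klc_overlap hy b hb
  exact ⟨k, (crt_mem_nmChart_iff A y⁻¹ _).2 hk⟩

/-- `y⁻ᵏ b ∈ B̄(y⁻¹)` for all large `k` -/
theorem crt_overlap_ge {y : FLb N} (hy : y ≠ 0) {b : FLb N} (hb : b ∈ nmChart N A y) :
    ∃ k : ℕ, ∀ n : ℕ, k ≤ n → y⁻¹ ^ n * b ∈ nmChart N A y⁻¹ := by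
  obtain ⟨k, hk⟩ := crt_overlap A hy hb
  refine ⟨k, fun n hn => ?_⟩
  obtain ⟨m, rfl⟩ := Nat.exists_eq_add_of_le hn
  have e : y⁻¹ ^ (k + m) * b = y⁻¹ ^ m * (y⁻¹ ^ k * b) := by rw [pow_add]; ring
  rw [e]
  exact (nmChart N A y⁻¹).mul_mem ((nmChart N A y⁻¹).pow_mem (self_mem_nmChart A y⁻¹) m) hk

end Fermat.Agent.H17.ORD
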