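/-
P-ORD (S33), block B1-ANCHOR, part [CRT] (helper17; findings #569): THE GLUED RING of a chart of
the nodal model `nmG` of `X₀(M p)` - statements.

`F = FLb (M p)`, `V_∞ = gaussOBar`, `V_0 = nmV0`, `B̄(y₀) = nmChart (M p) A y₀`, `y₀ = j` or `j⁻¹`.

* `CrtPair M p hcop A y₀ h∞ h0 x y` : the pair `(x, y) ∈ F_∞ × F_0` is regular on the chart `y₀`
  of both components (`x ∈ O_Q` at every place `Q` of `F_∞` with `red_∞ y₀ ∈ O_Q`, same for `y`)
  and glued at the nodes of the chart;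
* `NmCrtStatement M p` : **[CRT]** every such pair is `(red_∞ f, red_0 f)` for some `f ∈ B̄(y₀)`;
* `LocSol H P x y` : the pair is locally liftable at the centre of `P` : `s, f ∈ B̄(y_P)`,
  `s(P) ∉ 𝔪_A`, `red f = red s · (x, y)`.
-/
import Fermat.Agent.H84.ORD.NodalSpecFinal

set_option autoImplicit false
set_option linter.unusedSectionVars false

noncomputable section

open AlgebraicCurve ModularCurve

namespace Fermat.Agent.H17.ORD

open Fermat.Agent.H72.FF Fermat.Agent.H18.ORD Fermat.Agent.H66 Fermat.Agent.H84.ORD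

/-- the pair `(x, y)` is regular on the chart `y₀` of both components and glued at the nodes of
the chart. -/
def CrtPair (M p : ℕ) [NeZero M] [NeZero p] (hcop : Nat.Coprime M p) (A : ValuationSubring Qb)
    (y₀ : FLb (M * p)) (hoo : y₀ ∈ gaussOBar (M * p) A) (h0 : y₀ ∈ nmV0 M p hcop A)
    (x y : NmF (M * p) A) : Prop :=
  (∀ Q : Place (kRes A) (NmF (M * p) A),
      nmRedOo (M * p) A ⟨y₀, hoo⟩ ∈ Q.toValuationSubring → x ∈ Q.toValuationSubring) ∧
  (∀ Q : Place (kRes A) (NmF (M * p) A),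
      nmRed0 M p hcop A ⟨y₀, h0⟩ ∈ Q.toValuationSubring → y ∈ Q.toValuationSubring) ∧
  ∀ ν : NmNode M p hcop A,
    nmRedOo (M * p) A ⟨y₀, hoo⟩ ∈ (nmNOo M p hcop A ν).toValuationSubring →
    ∃ κ : kRes A,
      x - algebraMap (kRes A) (NmF (M * p) A) κ ∈
        (nmNOo M p hcop A ν).toValuationSubring.nonunits ∧
      y - algebraMap (kRes A) (NmF (M * p) A) κ ∈
        (nmN0 M p hcop A ν).toValuationSubring.nonunits

/-- **[CRT]** the glued ring of the charts `j`, `j⁻¹` : every pair which is regular on the chart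
and glued at its nodes is the pair of reductions of an element of the chart. -/
def NmCrtStatement (M p : ℕ) [NeZero M] [NeZero p] : Prop :=
  ∀ (A : ValuationSubring Qb) (h : NmSetup M p A) (y₀ : FLb (M * p)),
    (y₀ = nmJ (M * p) ∨ y₀ = (nmJ (M * p))⁻¹) →
    ∀ (hoo : y₀ ∈ gaussOBar (M * p) A) (h0 : y₀ ∈ nmV0 M p h.cop A) (x y : NmF (M * p) A),
      CrtPair M p h.cop A y₀ hoo h0 x y →
      ∃ f ∈ nmChart (M * p) A y₀, ∃ (hfoo : f ∈ gaussOBar (M * p) A)
        (hf0 : f ∈ nmV0 M p h.cop A),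
        nmRedOo (M * p) A ⟨f, hfoo⟩ = x ∧ nmRed0 M p h.cop A ⟨f, hf0⟩ = y

/-- the pair `(x, y)` is locally liftable at the centre of `P`. -/
def LocSol {M p : ℕ} [NeZero M] [NeZero p] {A : ValuationSubring Qb} (H : NmBase M p A)
    (P : Place Qb (FLb (M * p))) (x y : NmF (M * p) A) : Prop :=
  ∃ (s f : FLb (M * p)) (hs : s ∈ nmChart (M * p) A (nmY A P))
    (hf : f ∈ nmChart (M * p) A (nmY A P)), s ∉ nmMax A P ∧
    nmRedOo (M * p) A ⟨f, H.chart_le_oo P hf⟩ =
      nmRedOo (M * p) A ⟨s, H.chart_le_oo P hs⟩ * x ∧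
    nmRed0 M p H.setup.cop A ⟨f, H.chart_le_zero P hf⟩ =
      nmRed0 M p H.setup.cop A ⟨s, H.chart_le_zero P hs⟩ * y

end Fermat.Agent.H17.ORD
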