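/-
P-ORD (S33), block B1-ANCHOR, part [CRT] (helper17): LOCAL LIFTING of glued pairs at the centre of
a place `P`, from the local API [DVR] + [XY] of helper84's nodal model.

`locSol` : if `x ∈ O_Q` at every place `Q` of `F_∞` over the centre of `P`, `y ∈ O_{Q'}` at every
place `Q'` of `F_0` over the centre, and `x(Q) = y(Q')` whenever the centre lies on both
components, then there are `s, f ∈ B̄(y_P)` with `s(P) ∉ 𝔪_A` and `red f = red s · (x, y)` :
* centre on `C_∞` only : `x = red_∞ f₁ / red_∞ s₁` ([DVR]) and `e ∈ 𝔮_0 ∖ 𝔪` : `(e s₁, e f₁)`;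
* centre on `C_0` only : symmetric;
* node : `x = κ + Ȳ x'`, `y = κ + X̄ y'` with the node coordinates `X ∈ 𝔮_∞`, `Y ∈ 𝔮_0` of [XY],
  `x' = red_∞ f₁ / red_∞ s₁`, `y' = red_0 f₂ / red_0 s₂` : `(s₁ s₂, c s₁ s₂ + Y f₁ s₂ + X f₂ s₁)`.
-/
import Fermat.Agent.H17.ORD.CrtDefs

set_option autoImplicit false
set_option linter.unusedSectionVars false
set_option maxHeartbeats 1000000

noncomputable section

open AlgebraicCurve ModularCurve

namespace Fermat.Agent.H17.ORD

open Fermat.Agent.H72.FF Fermat.Agent.H18.ORD Fermat.Agent.H66 Fermat.Agent.H84.ORD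

/-! ### Generalities -/

section Gen

variable {K F : Type*} [Field K] [Field F] [Algebra K F]

theorem crt_mem_nonunits_iff_ord (v : Place K F) {f : F} :
    f ∈ v.toValuationSubring.nonunits ↔ f = 0 ∨ 0 < v.ord f := by
  rw [ValuationSubring.mem_nonunits_iff_exists_mem_maximalIdeal]
  constructor
  · rintro ⟨ha, h⟩
    exact (Fermat.Agent.H23.mem_maximalIdeal_iff_ord v ⟨f, ha⟩).1 h
  · intro h
    have hmem : f ∈ v.toValuationSubring := by
      rw [Fermat.Agent.H23.mem_iff_ord]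
      rcases h with h | h
      · exact Or.inl h
      · exact Or.inr h.le
    exact ⟨hmem, (Fermat.Agent.H23.mem_maximalIdeal_iff_ord v ⟨f, hmem⟩).2 h⟩

/-- division by a uniformiser -/
theorem crt_div_mem (v : Place K F) {z t : F} (hz : z ∈ v.toValuationSubring.nonunits)
    (ht : v.ord t = 1) : z * t⁻¹ ∈ v.toValuationSubring := by
  have ht0 : t ≠ 0 := by
    rintro rfl
    rw [Place.ord_zero] at ht
    exact zero_ne_one ht
  rw [Fermat.Agent.H23.mem_iff_ord]
  rcases (crt_mem_nonunits_iff_ord v).1 hz with h | h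
  · left; rw [h, zero_mul]
  · right
    have hz0 : z ≠ 0 := by
      rintro rfl
      rw [Place.ord_zero] at h
      exact lt_irrefl _ h
    rw [Place.ord_mul v hz0 (inv_ne_zero ht0), Place.ord_inv, ht]
    omega

theorem crt_not_mem_nonunits_mul (V : ValuationSubring F) {a b : F} (ha : a ∉ V.nonunits)
    (hb : b ∉ V.nonunits) : a * b ∉ V.nonunits := by
  rw [ValuationSubring.mem_nonunits_iff, not_lt] at ha hb ⊢
  rw [map_mul]
  calc (1 : V.ValueGroup) = 1 * 1 := (one_mul 1).symm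
    _ ≤ V.valuation a * V.valuation b := mul_le_mul' ha hb

variable {Fk : Type*} [Field Fk]

theorem crt_red_mul (V : Subring F) (red : V →+* Fk) {a b : F} (ha : a ∈ V) (hb : b ∈ V)
    (hab : a * b ∈ V) : red ⟨a * b, hab⟩ = red ⟨a, ha⟩ * red ⟨b, hb⟩ := by
  rw [← map_mul]
  rfl

theorem crt_red_add (V : Subring F) (red : V →+* Fk) {a b : F} (ha : a ∈ V) (hb : b ∈ V)
    (hab : a + b ∈ V) : red ⟨a + b, hab⟩ = red ⟨a, ha⟩ + red ⟨b, hb⟩ := by
  rw [← map_add]
  rfl

theorem crt_red_zero (V : Subring F) (red : V →+* Fk) (h : (0 : F) ∈ V) :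
    red ⟨0, h⟩ = 0 := by
  have : (⟨0, h⟩ : V) = 0 := rfl
  rw [this, map_zero]

end Gen

/-! ### The nodal model -/

section Model

variable {M p : ℕ} [NeZero M] [NeZero p] {A : ValuationSubring Qb}

theorem crt_not_mem_nmMax_mul (H : NmBase M p A) (P : Place Qb (FLb (M * p)))
    {a b : FLb (M * p)} (ha : a ∉ nmMax A P) (hb : b ∉ nmMax A P) : a * b ∉ nmMax A P := by
  rw [← mem_nonunits_nmComp_iff A P (H.deg P)] at ha hb ⊢
  exact crt_not_mem_nonunits_mul _ ha hb

/-- the residue of a constant -/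
theorem crt_redOo_const (H : NmBase M p A) {c : Qb} (hc : c ∈ A)
    (h : algebraMap Qb (FLb (M * p)) c ∈ gaussOBar (M * p) A) :
    nmRedOo (M * p) A ⟨_, h⟩ =
      algebraMap (kRes A) (NmF (M * p) A) (IsLocalRing.residue A ⟨c, hc⟩) :=
  H.oo.red_const ⟨c, hc⟩ h

theorem crt_red0_const (H : NmBase M p A) {c : Qb} (hc : c ∈ A)
    (h : algebraMap Qb (FLb (M * p)) c ∈ nmV0 M p H.setup.cop A) :
    nmRed0 M p H.setup.cop A ⟨_, h⟩ =
      algebraMap (kRes A) (NmF (M * p) A) (IsLocalRing.residue A ⟨c, hc⟩) :=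
  H.zero.red_const ⟨c, hc⟩ h

/-- **LOCAL LIFTING** of a glued pair at the centre of `P`. -/
theorem locSol (H : NmBase M p A) (hDo : NmDvrOoStatement M p) (hDz : NmDvrZeroStatement M p)
    (hXY : NmCrossStatement M p) (P : Place Qb (FLb (M * p))) (x y : NmF (M * p) A)
    (hx : ∀ Q, NmSpecOo M p A (nmCentre A P) Q → x ∈ Q.toValuationSubring)
    (hy : ∀ Q, NmSpecZero M p H.setup.cop A (nmCentre A P) Q → y ∈ Q.toValuationSubring)
    (hg : ∀ Q Q', NmSpecOo M p A (nmCentre A P) Q →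
      NmSpecZero M p H.setup.cop A (nmCentre A P) Q' →
      ∃ κ : kRes A,
        x - algebraMap (kRes A) (NmF (M * p) A) κ ∈ Q.toValuationSubring.nonunits ∧
        y - algebraMap (kRes A) (NmF (M * p) A) κ ∈ Q'.toValuationSubring.nonunits) :
    LocSol H P x y := by
  classical
  set B := nmChart (M * p) A (nmY A P) with hB
  by_cases ho : NmIdealOo M p A P
  · by_cases hz : NmIdealZero M p H.setup.cop A P
    · -- the node
      obtain ⟨hY, X, Y, d, ψ, hXB, hYB, -, -, -, -, -, -, -, ⟨hXV, hXred⟩, ⟨hYV0, hYred⟩,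
        Q, Q', hQ, hQ', ⟨hYV, hYord⟩, ⟨hXV0, hXord⟩⟩ := hXY A H.setup P ho hz
      rw [← hY] at hXB hYB
      obtain ⟨κ, hκx, hκy⟩ := hg Q Q' hQ hQ'
      obtain ⟨Q₁, hQ₁, hloc₁⟩ := hDo A H.setup P ho
      obtain ⟨Q₂, hQ₂, hloc₂⟩ := hDz A H.setup P hz
      have e₁ : Q₁ = Q := H.specOo_unique hDo hQ₁ hQ
      have e₂ : Q₂ = Q' := H.specZero_unique hDz hQ₂ hQ'
      subst e₁ e₂
      -- the quotients
      set Yb := nmRedOo (M * p) A ⟨Y, hYV⟩ with hYb
      set Xb := nmRed0 M p H.setup.cop A ⟨X, hXV0⟩ with hXb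
      have hYb0 : Yb ≠ 0 := by
        intro h0
        rw [h0, Place.ord_zero] at hYord
        exact zero_ne_one hYord
      have hXb0 : Xb ≠ 0 := by
        intro h0
        rw [h0, Place.ord_zero] at hXord
        exact zero_ne_one hXord
      obtain ⟨f₁, s₁, hf₁, hs₁, hf₁B, hs₁B, hs₁m, ef₁⟩ :=
        hloc₁ _ (crt_div_mem Q₁ hκx hYord)
      obtain ⟨f₂, s₂, hf₂, hs₂, hf₂B, hs₂B, hs₂m, ef₂⟩ :=
        hloc₂ _ (crt_div_mem Q₂ hκy hXord)
      -- a lift of `κ`
      obtain ⟨c, hc⟩ := IsLocalRing.residue_surjective (R := A) κ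
      have hcB : algebraMap Qb (FLb (M * p)) (c : Qb) ∈ B := algebraMap_mem_nmChart A _ c.2
      -- the solution
      have hsB : s₁ * s₂ ∈ B := B.mul_mem hs₁B hs₂B
      have hfB : algebraMap Qb (FLb (M * p)) (c : Qb) * (s₁ * s₂) + Y * (f₁ * s₂)
          + X * (f₂ * s₁) ∈ B :=
        B.add_mem (B.add_mem (B.mul_mem hcB hsB) (B.mul_mem hYB (B.mul_mem hf₁B hs₂B)))
          (B.mul_mem hXB (B.mul_mem hf₂B hs₁B))
      refine ⟨s₁ * s₂, _, hsB, hfB, crt_not_mem_nmMax_mul H P hs₁m hs₂m, ?_, ?_⟩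
      · -- component `∞`
        have a1 := H.chart_le_oo P hs₁B
        have a2 := H.chart_le_oo P hs₂B
        have a3 := H.chart_le_oo P hf₁B
        have a4 := H.chart_le_oo P hf₂B
        have a5 := H.chart_le_oo P hcB
        have a6 := H.chart_le_oo P hXB
        have a7 := H.chart_le_oo P hYB
        set V := gaussOBar (M * p) A
        set red := nmRedOo (M * p) A
        rw [crt_red_add V red (V.add_mem (V.mul_mem a5 (V.mul_mem a1 a2))
            (V.mul_mem a7 (V.mul_mem a3 a2))) (V.mul_mem a6 (V.mul_mem a4 a1)),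
          crt_red_add V red (V.mul_mem a5 (V.mul_mem a1 a2)) (V.mul_mem a7 (V.mul_mem a3 a2)),
          crt_red_mul V red a5 (V.mul_mem a1 a2), crt_red_mul V red a1 a2,
          crt_red_mul V red a7 (V.mul_mem a3 a2), crt_red_mul V red a3 a2,
          crt_red_mul V red a6 (V.mul_mem a4 a1)]
        have h1 : red ⟨X, a6⟩ = 0 := hXred
        have h2 : red ⟨f₁, a3⟩ = (x - algebraMap (kRes A) (NmF (M * p) A) κ) * Yb⁻¹ *
            red ⟨s₁, a1⟩ := ef₁
        have h3 : red ⟨algebraMap Qb (FLb (M * p)) (c : Qb), a5⟩ =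
            algebraMap (kRes A) (NmF (M * p) A) κ := by
          rw [← hc]
          exact crt_redOo_const H c.2 a5
        have h4 : red ⟨Y, a7⟩ = Yb := rfl
        rw [h1, h2, h3, h4, zero_mul, add_zero]
        field_simp
        ring
      · -- component `0`
        have a1 := H.chart_le_zero P hs₁B
        have a2 := H.chart_le_zero P hs₂B
        have a3 := H.chart_le_zero P hf₁B
        have a4 := H.chart_le_zero P hf₂B
        have a5 := H.chart_le_zero P hcB
        have a6 := H.chart_le_zero P hXB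
        have a7 := H.chart_le_zero P hYB
        set V := nmV0 M p H.setup.cop A
        set red := nmRed0 M p H.setup.cop A
        rw [crt_red_add V red (V.add_mem (V.mul_mem a5 (V.mul_mem a1 a2))
            (V.mul_mem a7 (V.mul_mem a3 a2))) (V.mul_mem a6 (V.mul_mem a4 a1)),
          crt_red_add V red (V.mul_mem a5 (V.mul_mem a1 a2)) (V.mul_mem a7 (V.mul_mem a3 a2)),
          crt_red_mul V red a5 (V.mul_mem a1 a2), crt_red_mul V red a1 a2,
          crt_red_mul V red a7 (V.mul_mem a3 a2), crt_red_mul V red a3 a2,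
          crt_red_mul V red a6 (V.mul_mem a4 a1), crt_red_mul V red a4 a1]
        have h1 : red ⟨Y, a7⟩ = 0 := hYred
        have h2 : red ⟨f₂, a4⟩ = (y - algebraMap (kRes A) (NmF (M * p) A) κ) * Xb⁻¹ *
            red ⟨s₂, a2⟩ := ef₂
        have h3 : red ⟨algebraMap Qb (FLb (M * p)) (c : Qb), a5⟩ =
            algebraMap (kRes A) (NmF (M * p) A) κ := by
          rw [← hc]
          exact crt_red0_const H c.2 a5
        have h4 : red ⟨X, a6⟩ = Xb := rfl
        rw [h1, h2, h3, h4, zero_mul, add_zero]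
        field_simp
        ring
    · -- the centre lies on `C_∞` only
      obtain ⟨Q, hQ, hloc⟩ := hDo A H.setup P ho
      obtain ⟨f₁, s₁, hf₁, hs₁, hf₁B, hs₁B, hs₁m, ef₁⟩ := hloc x (hx Q hQ)
      have hz' : ∃ e ∈ B, ∃ h : e ∈ nmV0 M p H.setup.cop A,
          nmRed0 M p H.setup.cop A ⟨e, h⟩ = 0 ∧ e ∉ nmMax A P := by
        by_contra hcon
        apply hz
        intro e he h h0
        by_contra hem
        exact hcon ⟨e, he, h, h0, hem⟩
      obtain ⟨e, heB, he0, hered, hem⟩ := hz'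
      refine ⟨e * s₁, e * f₁, B.mul_mem heB hs₁B, B.mul_mem heB hf₁B,
        crt_not_mem_nmMax_mul H P hem hs₁m, ?_, ?_⟩
      · have a1 := H.chart_le_oo P hs₁B
        have a3 := H.chart_le_oo P hf₁B
        have a5 := H.chart_le_oo P heB
        rw [crt_red_mul _ (nmRedOo (M * p) A) a5 a3, crt_red_mul _ (nmRedOo (M * p) A) a5 a1]
        have h2 : nmRedOo (M * p) A ⟨f₁, a3⟩ = x * nmRedOo (M * p) A ⟨s₁, a1⟩ := ef₁
        rw [h2]
        ring
      · have a1 := H.chart_le_zero P hs₁B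
        have a3 := H.chart_le_zero P hf₁B
        rw [crt_red_mul _ (nmRed0 M p H.setup.cop A) he0 a3,
          crt_red_mul _ (nmRed0 M p H.setup.cop A) he0 a1, hered, zero_mul, zero_mul, zero_mul]
  · have ho' : ∃ e ∈ B, ∃ h : e ∈ gaussOBar (M * p) A,
        nmRedOo (M * p) A ⟨e, h⟩ = 0 ∧ e ∉ nmMax A P := by
      by_contra hcon
      apply ho
      intro e he h h0
      by_contra hem
      exact hcon ⟨e, he, h, h0, hem⟩
    obtain ⟨e, heB, heV, hered, hem⟩ := ho'
    by_cases hz : NmIdealZero M p H.setup.cop A P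
    · -- the centre lies on `C_0` only
      obtain ⟨Q, hQ, hloc⟩ := hDz A H.setup P hz
      obtain ⟨f₂, s₂, hf₂, hs₂, hf₂B, hs₂B, hs₂m, ef₂⟩ := hloc y (hy Q hQ)
      refine ⟨e * s₂, e * f₂, B.mul_mem heB hs₂B, B.mul_mem heB hf₂B,
        crt_not_mem_nmMax_mul H P hem hs₂m, ?_, ?_⟩
      · have a1 := H.chart_le_oo P hs₂B
        have a3 := H.chart_le_oo P hf₂B
        rw [crt_red_mul _ (nmRedOo (M * p) A) heV a3,
          crt_red_mul _ (nmRedOo (M * p) A) heV a1, hered, zero_mul, zero_mul, zero_mul]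
      · have a1 := H.chart_le_zero P hs₂B
        have a3 := H.chart_le_zero P hf₂B
        have a5 := H.chart_le_zero P heB
        rw [crt_red_mul _ (nmRed0 M p H.setup.cop A) a5 a3,
          crt_red_mul _ (nmRed0 M p H.setup.cop A) a5 a1]
        have h2 : nmRed0 M p H.setup.cop A ⟨f₂, a3⟩ =
            y * nmRed0 M p H.setup.cop A ⟨s₂, a1⟩ := ef₂
        rw [h2]
        ring
    · -- the centre lies on no component (does not occur)
      have hz' : ∃ e ∈ B, ∃ h : e ∈ nmV0 M p H.setup.cop A,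
          nmRed0 M p H.setup.cop A ⟨e, h⟩ = 0 ∧ e ∉ nmMax A P := by
        by_contra hcon
        apply hz
        intro e he h h0
        by_contra hem
        exact hcon ⟨e, he, h, h0, hem⟩
      obtain ⟨e', heB', he0', hered', hem'⟩ := hz'
      refine ⟨e * e', 0, B.mul_mem heB heB', B.zero_mem,
        crt_not_mem_nmMax_mul H P hem hem', ?_, ?_⟩
      · have a5 := H.chart_le_oo P heB'
        rw [crt_red_mul _ (nmRedOo (M * p) A) heV a5, hered, zero_mul, zero_mul]
        exact crt_red_zero _ _ _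
      · have a5 := H.chart_le_zero P heB
        rw [crt_red_mul _ (nmRed0 M p H.setup.cop A) a5 he0', hered', mul_zero, zero_mul]
        exact crt_red_zero _ _ _

end Model

end Fermat.Agent.H17.ORD
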