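/-
P-ORD (S33), block B1-ANCHOR, part [CRT] (helper17; findings #569): THE GLUED RING of the charts
`j`, `j⁻¹` of the nodal model `nmG` of `X₀(M p)`.

`nmCrt : [DVR]_∞ → [DVR]_0 → [XY] → NmCrtStatement M p` : every pair `(x, y) ∈ F_∞ × F_0` which is
regular on the chart `y₀` (`= j` or `j⁻¹`) of both components and glued at the nodes of the chart
is `(red_∞ f, red_0 f)` for some `f ∈ B̄(y₀)`.

Proof (local-global, no noetherian hypothesis): the denominators
`I = {s ∈ B̄ | ∃ f ∈ B̄, red f = red s · (x, y)}` form an ideal containing `𝔪_A`.  A maximal ideal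
`S ⊇ I` contains `y₀ - a` for some `a ∈ A` (`B̄` is integral over `A[y₀]`, `ℚ̄` is algebraically
closed), hence is the centre of a place `P` (helper39's going-down core `sc_exists_place`); the
local lifting `locSol` at `P` (transported to the chart `j⁻¹` by the overlap if necessary) gives
`s ∈ I` with `s(P) ∉ 𝔪_A`, so `s ∉ S`: contradiction.
-/
import Fermat.Agent.H17.ORD.CrtLocal
import Fermat.Agent.H17.ORD.CrtChartDict
import Fermat.Agent.H39.ORD.SurjCore
import Fermat.Agent.H23.Final3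
import Fermat.Agent.H20.ORD.NmSoft

set_option autoImplicit false
set_option linter.unusedSectionVars false
set_option linter.style.haveILetI false
set_option maxHeartbeats 1000000

noncomputable section

open AlgebraicCurve ModularCurve Polynomial IntermediateField

namespace Fermat.Agent.H17.ORD

open Fermat.Agent.H72.FF Fermat.Agent.H18.ORD Fermat.Agent.H66 Fermat.Agent.H84.ORD
  Fermat.Agent.H39.ORD

/-! ### The coordinate `y₀ = j` or `j⁻¹` -/

section Coord

variable (N : ℕ) [NeZero N]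

theorem crt_nmJ_eq : nmJ N = Fermat.Agent.H23.jBar N := by
  apply Subtype.ext
  show coeffEmb (AlgebraicClosure ℚ) (qExpand ℚ 1 jq) = coeffEmb (AlgebraicClosure ℚ) jq
  rw [qExpand_one_apply]

theorem crt_transcendental_j : Transcendental Qb (nmJ N) := by
  rw [crt_nmJ_eq]
  exact (Fermat.Agent.H23.degreeStatement_holds N).1

theorem crt_finite_j : FiniteDimensional Qb⟮nmJ N⟯ (FLb N) := by
  rw [crt_nmJ_eq]
  exact (Fermat.Agent.H23.degreeStatement_holds N).2.1

theorem crt_nmJ_ne_zero : nmJ N ≠ 0 := by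
  intro h
  apply crt_transcendental_j N
  rw [h]
  exact isAlgebraic_zero

theorem crt_transcendental_inv : Transcendental Qb (nmJ N)⁻¹ := by
  intro h
  apply crt_transcendental_j N
  have := h.inv
  rwa [inv_inv] at this

theorem crt_adjoin_inv : Qb⟮(nmJ N)⁻¹⟯ = Qb⟮nmJ N⟯ := by
  apply le_antisymm
  · rw [adjoin_simple_le_iff]
    exact inv_mem (mem_adjoin_simple_self Qb (nmJ N))
  · rw [adjoin_simple_le_iff]
    have := inv_mem (mem_adjoin_simple_self Qb (nmJ N)⁻¹)
    rwa [inv_inv] at this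

theorem crt_finite_of_eq (E E' : IntermediateField Qb (FLb N)) (h : E = E')
    (hE : FiniteDimensional E (FLb N)) : FiniteDimensional E' (FLb N) := by
  subst h
  exact hE

theorem crt_finite_inv : FiniteDimensional Qb⟮(nmJ N)⁻¹⟯ (FLb N) :=
  crt_finite_of_eq N _ _ (crt_adjoin_inv N).symm (crt_finite_j N)

theorem crt_transcendental {y₀ : FLb N} (hy₀ : y₀ = nmJ N ∨ y₀ = (nmJ N)⁻¹) :
    Transcendental Qb y₀ := by
  rcases hy₀ with rfl | rfl
  · exact crt_transcendental_j N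
  · exact crt_transcendental_inv N

theorem crt_finite {y₀ : FLb N} (hy₀ : y₀ = nmJ N ∨ y₀ = (nmJ N)⁻¹) :
    FiniteDimensional Qb⟮y₀⟯ (FLb N) := by
  rcases hy₀ with rfl | rfl
  · exact crt_finite_j N
  · exact crt_finite_inv N

end Coord

/-! ### A maximal ideal of the chart over `𝔪_A` contains some `y₀ - a` -/

section Max

variable {N : ℕ} [NeZero N]

theorem crt_exists_sub_mem (A : ValuationSubring Qb) (y₀ : FLb N)
    (S : Ideal ↥(scChart A y₀)) (hS : S.IsMaximal)
    (hm : ∀ (c : Qb), c ∈ A.nonunits → ∀ h : algebraMap Qb (FLb N) c ∈ scChart A y₀,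
      (⟨_, h⟩ : ↥(scChart A y₀)) ∈ S) :
    ∃ a ∈ A, ∀ h : y₀ - algebraMap Qb (FLb N) a ∈ scChart A y₀,
      (⟨_, h⟩ : ↥(scChart A y₀)) ∈ S := by
  classical
  set T := ↥(scChart A y₀) with hT
  letI algT : Algebra (Polynomial ↥A) T := (scHomT A y₀).toAlgebra
  have halg : ∀ g : Polynomial ↥A, algebraMap (Polynomial ↥A) T g = scHomT A y₀ g := fun _ => rfl
  haveI : Algebra.IsIntegral (Polynomial ↥A) T := ⟨fun t => scHomT_isIntegralElem A y₀ t⟩
  haveI := hS
  set q : Ideal (Polynomial ↥A) := S.comap (algebraMap (Polynomial ↥A) T) with hq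
  haveI hqmax : q.IsMaximal := Ideal.isMaximal_comap_of_isIntegral_of_isMaximal S
  -- constants of `𝔪_A`
  have hC : ∀ c : ↥A, (c : Qb) ∈ A.nonunits → C c ∈ q := by
    intro c hc
    rw [hq, Ideal.mem_comap]
    have h1 : ((algebraMap (Polynomial ↥A) T (C c) : T) : FLb N) = algebraMap Qb (FLb N) (c : Qb) := by
      rw [halg, coe_scHomT, scHom_C]
    have h2 : algebraMap Qb (FLb N) (c : Qb) ∈ scChart A y₀ :=
      h1 ▸ (algebraMap (Polynomial ↥A) T (C c)).2
    have h3 := hm _ hc h2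
    have h4 : (⟨algebraMap Qb (FLb N) (c : Qb), h2⟩ : T) = algebraMap (Polynomial ↥A) T (C c) :=
      Subtype.ext h1.symm
    rwa [h4] at h3
  -- reduction of polynomials
  let res : ↥A →+* kRes A := IsLocalRing.residue ↥A
  have hsurj : Function.Surjective (Polynomial.mapRingHom res) :=
    Polynomial.map_surjective res IsLocalRing.residue_surjective
  have hker : RingHom.ker (Polynomial.mapRingHom res) ≤ q := by
    rw [Polynomial.ker_mapRingHom, Ideal.map_le_iff_le_comap]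
    intro c hc
    rw [Ideal.mem_comap]
    apply hC
    have hc' : c ∈ IsLocalRing.maximalIdeal ↥A := by
      rw [← IsLocalRing.ker_residue]
      exact hc
    exact (ValuationSubring.coe_mem_nonunits_iff).2 hc'
  set q' : Ideal (Polynomial (kRes A)) := q.map (Polynomial.mapRingHom res) with hq'
  have hcomap : q'.comap (Polynomial.mapRingHom res) = q := by
    rw [hq', Ideal.comap_map_of_surjective _ hsurj]
    apply sup_eq_left.2
    exact hker
  have hq'top : q' ≠ ⊤ := by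
    intro h
    rw [h, Ideal.comap_top] at hcomap
    exact hqmax.ne_top hcomap.symm
  have hq'max : q'.IsMaximal :=
    (Ideal.map_eq_top_or_isMaximal_of_surjective _ hsurj hqmax).resolve_left hq'top
  have hq'bot : q' ≠ ⊥ := by
    intro h
    rw [h] at hq'max
    exact Polynomial.not_isField (kRes A) (Ring.isField_iff_maximal_bot.2 hq'max)
  obtain ⟨g, hgq, hg0⟩ := Submodule.exists_mem_ne_zero_of_ne_bot hq'bot
  have hgm : (g * C g.leadingCoeff⁻¹).Monic := Polynomial.monic_mul_leadingCoeff_inv hg0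
  have hgq' : g * C g.leadingCoeff⁻¹ ∈ q' := q'.mul_mem_right _ hgq
  have hlift : g * C g.leadingCoeff⁻¹ ∈ Polynomial.lifts res := by
    rw [Polynomial.lifts_iff_coeff_lifts]
    intro n
    exact IsLocalRing.residue_surjective _
  obtain ⟨G, hGmap, -, hGm⟩ := Polynomial.lifts_and_degree_eq_and_monic hlift hgm
  have hGq : G ∈ q := by
    rw [← hcomap, Ideal.mem_comap]
    show Polynomial.map res G ∈ q'
    rw [hGmap]
    exact hgq'
  -- the root
  haveI : S.IsPrime := hS.isPrime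
  let Φ : Polynomial ↥A →+* T ⧸ S := (Ideal.Quotient.mk S).comp (algebraMap (Polynomial ↥A) T)
  have hΦG : Φ G = 0 := by
    show Ideal.Quotient.mk S (algebraMap (Polynomial ↥A) T G) = 0
    rw [Ideal.Quotient.eq_zero_iff_mem]
    exact hGq
  have h0 : eval₂ (Φ.comp C) (Φ X) G = 0 := by
    rw [← Polynomial.hom_eval₂, Polynomial.eval₂_C_X]
    exact hΦG
  obtain ⟨c, hc⟩ := sc_root_mem A (Φ.comp C) (Φ X) G.natDegree G rfl hGm h0
  refine ⟨(c : Qb), c.2, fun h => ?_⟩
  have h1 : Φ (X - C c) = 0 := by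
    rw [map_sub, hc]
    simp
  have h2 : algebraMap (Polynomial ↥A) T (X - C c) ∈ S := by
    rw [← Ideal.Quotient.eq_zero_iff_mem]
    exact h1
  have h3 : ((algebraMap (Polynomial ↥A) T (X - C c) : T) : FLb N) =
      y₀ - algebraMap Qb (FLb N) (c : Qb) := by
    rw [halg, coe_scHomT, map_sub, scHom_X, scHom_C]
  have h4 : (⟨y₀ - algebraMap Qb (FLb N) (c : Qb), h⟩ : T) =
      algebraMap (Polynomial ↥A) T (X - C c) := Subtype.ext h3.symm
  rw [h4]
  exact h2

end Max

/-! ### The glued ring -/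

section Main

variable {M p : ℕ} [NeZero M] [NeZero p] {A : ValuationSubring Qb}

/-- the charts `B̄(y₀)`, `y₀ ∈ V_∞`, are contained in `V_∞` -/
theorem crt_chart_le_oo (H : NmBase M p A) {y₀ : FLb (M * p)}
    (hoo : y₀ ∈ gaussOBar (M * p) A) {f : FLb (M * p)} (hf : f ∈ nmChart (M * p) A y₀) :
    f ∈ gaussOBar (M * p) A :=
  nmChart_le A H.oo.val (fun c hc => H.oo.const_mem c hc) hoo hf

/-- the charts `B̄(y₀)`, `y₀ ∈ V_0`, are contained in `V_0` -/
theorem crt_chart_le_zero (H : NmBase M p A) {y₀ : FLb (M * p)}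
    (h0 : y₀ ∈ nmV0 M p H.setup.cop A) {f : FLb (M * p)} (hf : f ∈ nmChart (M * p) A y₀) :
    f ∈ nmV0 M p H.setup.cop A :=
  nmChart_le A H.zero.val (fun c hc => H.zero.const_mem c hc) h0 hf

/-- the chart `B̄(y₀)` has values in `A` at the places `P` with `y₀(P) ∈ A` -/
theorem crt_chart_value (H : NmBase M p A) (P : Place Qb (FLb (M * p))) {y₀ : FLb (M * p)}
    (hy : y₀ ∈ nmInt A P) {f : FLb (M * p)} (hf : f ∈ nmChart (M * p) A y₀) :
    ∃ c ∈ A, HasValue P f c :=
  nmChart_le A (nmComp A P (H.deg P)) (fun _ hc => algebraMap_mem_nmComp A P (H.deg P) hc) hy hf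

theorem crt_not_mem_nmMax_pow (H : NmBase M p A) (P : Place Qb (FLb (M * p)))
    {a : FLb (M * p)} (ha : a ∉ nmMax A P) (n : ℕ) : a ^ n ∉ nmMax A P := by
  induction n with
  | zero =>
    rw [pow_zero]
    intro h
    have h1 : HasValue P (1 : FLb (M * p)) 1 := by
      rw [← map_one (algebraMap Qb (FLb (M * p)))]
      exact nm_hasValue_const P 1
    have := (mem_nmMax_iff_of_value P h1).1 h
    rw [ValuationSubring.mem_nonunits_iff, map_one] at this
    exact lt_irrefl _ this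
  | succ n ih =>
    rw [pow_succ]
    exact crt_not_mem_nmMax_mul H P ih ha

/-- if `u` and `u⁻¹` have values in `A` at `P`, then `u ∉ 𝔐_P` -/
theorem crt_not_mem_nmMax_of_inv (P : Place Qb (FLb (M * p))) {u : FLb (M * p)}
    (hu : u ∈ nmInt A P) (hui : u⁻¹ ∈ nmInt A P) (hu0 : u ≠ 0) : u ∉ nmMax A P := by
  obtain ⟨b, hbA, hb⟩ := hu
  obtain ⟨a, haA, ha⟩ := hui
  have h1 : HasValue P (u * u⁻¹) (b * a) := nm_hasValue_mul P hb ha
  rw [mul_inv_cancel₀ hu0] at h1
  have h2 : HasValue P (1 : FLb (M * p)) 1 := by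
    rw [← map_one (algebraMap Qb (FLb (M * p)))]
    exact nm_hasValue_const P 1
  have hba : b * a = 1 := nm_hasValue_unique P h1 h2
  rw [mem_nmMax_iff_of_value P hb]
  intro hbn
  rw [ValuationSubring.mem_nonunits_iff] at hbn
  have ha1 : A.valuation a ≤ 1 := (ValuationSubring.valuation_le_one_iff _ _).2 haA
  have : A.valuation (b * a) < 1 := by
    rw [map_mul]
    calc A.valuation b * A.valuation a ≤ A.valuation b * 1 := by gcongr
      _ = A.valuation b := mul_one _
      _ < 1 := hbn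
  rw [hba, map_one] at this
  exact lt_irrefl _ this

/-- a unit of `O_Q` -/
theorem crt_inv_mem_of_not_mem_nonunits {K F : Type*} [Field K] [Field F] [Algebra K F]
    (Q : Place K F) {z : F} (hz : z ∈ Q.toValuationSubring)
    (hzn : z ∉ Q.toValuationSubring.nonunits) : z⁻¹ ∈ Q.toValuationSubring := by
  rw [ValuationSubring.mem_nonunits_iff, not_lt] at hzn
  have h1 : Q.toValuationSubring.valuation z ≤ 1 :=
    (ValuationSubring.valuation_le_one_iff _ _).2 hz
  have h2 : Q.toValuationSubring.valuation z = 1 := le_antisymm h1 hzn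
  rw [← ValuationSubring.valuation_le_one_iff, map_inv₀, h2, inv_one]

/-- `red y₀ ∈ O_Q` for `Q` over the centre of a place of the chart `y₀` (component `∞`) -/
theorem crt_redOo_coord_mem (H : NmBase M p A) (P : Place Qb (FLb (M * p)))
    {y₀ : FLb (M * p)} (hy₀ : y₀ = nmJ (M * p) ∨ y₀ = (nmJ (M * p))⁻¹)
    (hyP : y₀ ∈ nmInt A P) (hoo : y₀ ∈ gaussOBar (M * p) A)
    {Q : Place (kRes A) (NmF (M * p) A)} (hQ : NmSpecOo M p A (nmCentre A P) Q) :
    nmRedOo (M * p) A ⟨y₀, hoo⟩ ∈ Q.toValuationSubring := by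
  classical
  by_cases hY : nmY A P = y₀
  · exact H.redOo_mem hQ (by rw [hY]; exact self_mem_nmChart A y₀) hoo
  · -- `y₀ = j⁻¹`, the chart of `P` is `j`
    have hj : nmJ (M * p) ∈ nmInt A P := by
      by_contra hj
      rcases hy₀ with rfl | rfl
      · exact hj hyP
      · apply hY
        unfold nmY
        rw [if_neg hj]
    have hYj : nmY A P = nmJ (M * p) := by unfold nmY; rw [if_pos hj]
    have hy₀' : y₀ = (nmJ (M * p))⁻¹ := by
      rcases hy₀ with rfl | rfl
      · exact absurd hYj hY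
      · rfl
    subst hy₀'
    have hj0 : nmJ (M * p) ≠ 0 := crt_nmJ_ne_zero (M * p)
    have hjB : nmJ (M * p) ∈ nmChart (M * p) A (nmY A P) := by
      rw [hYj]; exact self_mem_nmChart A _
    have hjV : nmJ (M * p) ∈ gaussOBar (M * p) A := H.oo.j_mem
    have h1 := H.redOo_mem hQ hjB hjV
    have h2 : nmRedOo (M * p) A ⟨nmJ (M * p), hjV⟩ ∉ Q.toValuationSubring.nonunits := by
      rw [H.redOo_mem_nonunits_iff hQ hjB hjV]
      exact crt_not_mem_nmMax_of_inv P hj hyP hj0
    have h3 := crt_inv_mem_of_not_mem_nonunits Q h1 h2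
    have e : nmRedOo (M * p) A ⟨(nmJ (M * p))⁻¹, hoo⟩ =
        (nmRedOo (M * p) A ⟨nmJ (M * p), hjV⟩)⁻¹ := by
      apply eq_inv_of_mul_eq_one_left
      rw [← map_mul, ← map_one (nmRedOo (M * p) A)]
      congr 1
      apply Subtype.ext
      show (nmJ (M * p))⁻¹ * nmJ (M * p) = 1
      exact inv_mul_cancel₀ hj0
    rw [e]
    exact h3

/-- `red y₀ ∈ O_Q` for `Q` over the centre of a place of the chart `y₀` (component `0`) -/
theorem crt_red0_coord_mem (H : NmBase M p A) (P : Place Qb (FLb (M * p)))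
    {y₀ : FLb (M * p)} (hy₀ : y₀ = nmJ (M * p) ∨ y₀ = (nmJ (M * p))⁻¹)
    (hyP : y₀ ∈ nmInt A P) (h0 : y₀ ∈ nmV0 M p H.setup.cop A)
    {Q : Place (kRes A) (NmF (M * p) A)}
    (hQ : NmSpecZero M p H.setup.cop A (nmCentre A P) Q) :
    nmRed0 M p H.setup.cop A ⟨y₀, h0⟩ ∈ Q.toValuationSubring := by
  classical
  by_cases hY : nmY A P = y₀
  · exact H.red0_mem hQ (by rw [hY]; exact self_mem_nmChart A y₀) h0
  · have hj : nmJ (M * p) ∈ nmInt A P := by
      by_contra hj
      rcases hy₀ with rfl | rfl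
      · exact hj hyP
      · apply hY
        unfold nmY
        rw [if_neg hj]
    have hYj : nmY A P = nmJ (M * p) := by unfold nmY; rw [if_pos hj]
    have hy₀' : y₀ = (nmJ (M * p))⁻¹ := by
      rcases hy₀ with rfl | rfl
      · exact absurd hYj hY
      · rfl
    subst hy₀'
    have hj0 : nmJ (M * p) ≠ 0 := crt_nmJ_ne_zero (M * p)
    have hjB : nmJ (M * p) ∈ nmChart (M * p) A (nmY A P) := by
      rw [hYj]; exact self_mem_nmChart A _
    have hjV : nmJ (M * p) ∈ nmV0 M p H.setup.cop A := H.zero.j_mem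
    have h1 := H.red0_mem hQ hjB hjV
    have h2 : nmRed0 M p H.setup.cop A ⟨nmJ (M * p), hjV⟩ ∉ Q.toValuationSubring.nonunits := by
      rw [H.red0_mem_nonunits_iff hQ hjB hjV]
      exact crt_not_mem_nmMax_of_inv P hj hyP hj0
    have h3 := crt_inv_mem_of_not_mem_nonunits Q h1 h2
    have e : nmRed0 M p H.setup.cop A ⟨(nmJ (M * p))⁻¹, h0⟩ =
        (nmRed0 M p H.setup.cop A ⟨nmJ (M * p), hjV⟩)⁻¹ := by
      apply eq_inv_of_mul_eq_one_left
      rw [← map_mul, ← map_one (nmRed0 M p H.setup.cop A)]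
      congr 1
      apply Subtype.ext
      show (nmJ (M * p))⁻¹ * nmJ (M * p) = 1
      exact inv_mul_cancel₀ hj0
    rw [e]
    exact h3

/-- **LOCAL LIFTING in the chart `y₀`** : for a glued pair of the chart `y₀` and a place `P` of
the chart there are `s, f ∈ B̄(y₀)`, `s(P) ∉ 𝔪_A`, `red f = red s · (x, y)`. -/
theorem crt_local (H : NmBase M p A) (hDo : NmDvrOoStatement M p)
    (hDz : NmDvrZeroStatement M p) (hXY : NmCrossStatement M p)
    {y₀ : FLb (M * p)} (hy₀ : y₀ = nmJ (M * p) ∨ y₀ = (nmJ (M * p))⁻¹)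
    (hoo : y₀ ∈ gaussOBar (M * p) A) (h0 : y₀ ∈ nmV0 M p H.setup.cop A)
    (x y : NmF (M * p) A) (hpair : CrtPair M p H.setup.cop A y₀ hoo h0 x y)
    (P : Place Qb (FLb (M * p))) (hyP : y₀ ∈ nmInt A P) :
    ∃ (s f : FLb (M * p)) (hs : s ∈ nmChart (M * p) A y₀) (hf : f ∈ nmChart (M * p) A y₀),
      s ∉ nmMax A P ∧
      nmRedOo (M * p) A ⟨f, crt_chart_le_oo H hoo hf⟩ =
        nmRedOo (M * p) A ⟨s, crt_chart_le_oo H hoo hs⟩ * x ∧
      nmRed0 M p H.setup.cop A ⟨f, crt_chart_le_zero H h0 hf⟩ =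
        nmRed0 M p H.setup.cop A ⟨s, crt_chart_le_zero H h0 hs⟩ * y := by
  classical
  obtain ⟨hx, hy, hg⟩ := hpair
  -- the local solution in the chart of `P`
  have hloc : LocSol H P x y := by
    refine locSol H hDo hDz hXY P x y ?_ ?_ ?_
    · intro Q hQ
      exact hx Q (crt_redOo_coord_mem H P hy₀ hyP hoo hQ)
    · intro Q hQ
      exact hy Q (crt_red0_coord_mem H P hy₀ hyP h0 hQ)
    · intro Q Q' hQ hQ'
      let ν : NmNode M p H.setup.cop A := ⟨nmCentre A P, ⟨P, rfl⟩, ⟨Q, hQ⟩, ⟨Q', hQ'⟩⟩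
      have e1 : nmNOo M p H.setup.cop A ν = Q :=
        H.specOo_unique hDo (nmNOo_spec M p H.setup.cop A ν) hQ
      have e2 : nmN0 M p H.setup.cop A ν = Q' :=
        H.specZero_unique hDz (nmN0_spec M p H.setup.cop A ν) hQ'
      have := hg ν (by rw [e1]; exact crt_redOo_coord_mem H P hy₀ hyP hoo hQ)
      rw [e1, e2] at this
      exact this
  obtain ⟨s, f, hs, hf, hsm, eoo, ezero⟩ := hloc
  by_cases hY : nmY A P = y₀
  · subst hY
    exact ⟨s, f, hs, hf, hsm, eoo, ezero⟩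
  · -- `y₀ = j⁻¹`, the chart of `P` is `j` : transport by the overlap
    have hj : nmJ (M * p) ∈ nmInt A P := by
      by_contra hj
      rcases hy₀ with rfl | rfl
      · exact hj hyP
      · apply hY
        unfold nmY
        rw [if_neg hj]
    have hYj : nmY A P = nmJ (M * p) := by unfold nmY; rw [if_pos hj]
    have hy₀' : y₀ = (nmJ (M * p))⁻¹ := by
      rcases hy₀ with rfl | rfl
      · exact absurd hYj hY
      · rfl
    subst hy₀'
    have hj0 : nmJ (M * p) ≠ 0 := crt_nmJ_ne_zero (M * p)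
    rw [hYj] at hs hf
    obtain ⟨k₁, hk₁⟩ := crt_overlap_ge A hj0 hs
    obtain ⟨k₂, hk₂⟩ := crt_overlap_ge A hj0 hf
    set n := max k₁ k₂ with hn
    have hs' := hk₁ n (le_max_left _ _)
    have hf' := hk₂ n (le_max_right _ _)
    have hji0 : (nmJ (M * p))⁻¹ ≠ 0 := inv_ne_zero hj0
    have hjim : (nmJ (M * p))⁻¹ ∉ nmMax A P :=
      crt_not_mem_nmMax_of_inv P hyP (by rw [inv_inv]; exact hj) hji0
    refine ⟨(nmJ (M * p))⁻¹ ^ n * s, (nmJ (M * p))⁻¹ ^ n * f, hs', hf',
      crt_not_mem_nmMax_mul H P (crt_not_mem_nmMax_pow H P hjim n) hsm, ?_, ?_⟩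
    · have a1 : (nmJ (M * p))⁻¹ ^ n ∈ gaussOBar (M * p) A :=
        (gaussOBar (M * p) A).pow_mem hoo n
      have a2 : s ∈ gaussOBar (M * p) A := crt_chart_le_oo H H.oo.j_mem hs
      have a3 : f ∈ gaussOBar (M * p) A := crt_chart_le_oo H H.oo.j_mem hf
      rw [crt_red_mul _ (nmRedOo (M * p) A) a1 a3, crt_red_mul _ (nmRedOo (M * p) A) a1 a2]
      have e : nmRedOo (M * p) A ⟨f, a3⟩ = nmRedOo (M * p) A ⟨s, a2⟩ * x := eoo
      rw [e]
      ring
    · have a1 : (nmJ (M * p))⁻¹ ^ n ∈ nmV0 M p H.setup.cop A :=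
        (nmV0 M p H.setup.cop A).pow_mem h0 n
      have a2 : s ∈ nmV0 M p H.setup.cop A := crt_chart_le_zero H H.zero.j_mem hs
      have a3 : f ∈ nmV0 M p H.setup.cop A := crt_chart_le_zero H H.zero.j_mem hf
      rw [crt_red_mul _ (nmRed0 M p H.setup.cop A) a1 a3,
        crt_red_mul _ (nmRed0 M p H.setup.cop A) a1 a2]
      have e : nmRed0 M p H.setup.cop A ⟨f, a3⟩ = nmRed0 M p H.setup.cop A ⟨s, a2⟩ * y := ezero
      rw [e]
      ring

/-- **[CRT] for one valuation ring** : the glued ring of the chart `y₀`. -/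
theorem crt_global (H : NmBase M p A) (hDo : NmDvrOoStatement M p)
    (hDz : NmDvrZeroStatement M p) (hXY : NmCrossStatement M p)
    {y₀ : FLb (M * p)} (hy₀ : y₀ = nmJ (M * p) ∨ y₀ = (nmJ (M * p))⁻¹)
    (hoo : y₀ ∈ gaussOBar (M * p) A) (h0 : y₀ ∈ nmV0 M p H.setup.cop A)
    (x y : NmF (M * p) A) (hpair : CrtPair M p H.setup.cop A y₀ hoo h0 x y) :
    ∃ f ∈ nmChart (M * p) A y₀, ∃ (hfoo : f ∈ gaussOBar (M * p) A)
      (hf0 : f ∈ nmV0 M p H.setup.cop A),
      nmRedOo (M * p) A ⟨f, hfoo⟩ = x ∧ nmRed0 M p H.setup.cop A ⟨f, hf0⟩ = y := by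
  classical
  set T := ↥(scChart A y₀) with hT
  have hleoo : scChart A y₀ ≤ gaussOBar (M * p) A := fun f hf => crt_chart_le_oo H hoo hf
  have hle0 : scChart A y₀ ≤ nmV0 M p H.setup.cop A := fun f hf => crt_chart_le_zero H h0 hf
  let ρoo : T →+* NmF (M * p) A := (nmRedOo (M * p) A).comp (Subring.inclusion hleoo)
  let ρ0 : T →+* NmF (M * p) A := (nmRed0 M p H.setup.cop A).comp (Subring.inclusion hle0)
  -- the ideal of denominators
  let I : Ideal T :=
    { carrier := {s | ∃ f : T, ρoo f = ρoo s * x ∧ ρ0 f = ρ0 s * y}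
      add_mem' := by
        rintro a b ⟨f, h1, h2⟩ ⟨g, h3, h4⟩
        refine ⟨f + g, ?_, ?_⟩
        · rw [map_add, map_add, h1, h3]; ring
        · rw [map_add, map_add, h2, h4]; ring
      zero_mem' := ⟨0, by rw [map_zero, zero_mul], by rw [map_zero, zero_mul]⟩
      smul_mem' := by
        rintro c s ⟨f, h1, h2⟩
        refine ⟨c * f, ?_, ?_⟩
        · rw [smul_eq_mul, map_mul, map_mul, h1]; ring
        · rw [smul_eq_mul, map_mul, map_mul, h2]; ring }
  have hImem : ∀ s : T, s ∈ I ↔ ∃ f : T, ρoo f = ρoo s * x ∧ ρ0 f = ρ0 s * y := fun _ => Iff.rfl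
  suffices h1 : (1 : T) ∈ I by
    obtain ⟨f, e1, e2⟩ := (hImem 1).1 h1
    rw [map_one, one_mul] at e1 e2
    exact ⟨(f : FLb (M * p)), f.2, hleoo f.2, hle0 f.2, e1, e2⟩
  by_contra hI1
  have hne : I ≠ ⊤ := fun h => hI1 (h ▸ Submodule.mem_top)
  obtain ⟨S, hSmax, hIS⟩ := Ideal.exists_le_maximal I hne
  haveI : S.IsPrime := hSmax.isPrime
  -- `𝔪_A ⊆ S`
  have hm : ∀ (c : Qb), c ∈ A.nonunits → ∀ h : algebraMap Qb (FLb (M * p)) c ∈ scChart A y₀,
      (⟨_, h⟩ : T) ∈ S := by
    intro c hc h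
    apply hIS
    rw [hImem]
    refine ⟨0, ?_, ?_⟩
    · have e : ρoo ⟨_, h⟩ = 0 := H.oo.red_const_nonunit hc
      rw [e, map_zero, zero_mul]
    · have e : ρ0 ⟨_, h⟩ = 0 := H.zero.red_const_nonunit hc
      rw [e, map_zero, zero_mul]
  -- the centre
  obtain ⟨a, haA, hya⟩ := crt_exists_sub_mem A y₀ S hSmax hm
  obtain ⟨P, hPord, hPS⟩ := sc_exists_place A (crt_transcendental (M * p) hy₀)
    (crt_finite (M * p) hy₀) haA S hm hya
  have hyP : y₀ ∈ nmInt A P := ⟨a, haA, Or.inr hPord⟩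
  -- the local solution
  obtain ⟨s, f, hs, hf, hsm, eoo, ezero⟩ := crt_local H hDo hDz hXY hy₀ hoo h0 x y hpair P hyP
  have hsI : (⟨s, hs⟩ : T) ∈ I := by
    rw [hImem]
    exact ⟨⟨f, hf⟩, eoo, ezero⟩
  have hsS : (⟨s, hs⟩ : T) ∈ S := hIS hsI
  -- the value of `s` at `P` is a unit of `A`
  obtain ⟨c, hcA, hcv⟩ := crt_chart_value H P hyP hs
  have hcu : c ∉ A.nonunits := fun hcn => hsm ((mem_nmMax_iff_of_value P hcv).2 hcn)
  have hcB : algebraMap Qb (FLb (M * p)) c ∈ scChart A y₀ := algebraMap_mem_nmChart A y₀ hcA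
  have hdiff : (⟨s, hs⟩ - ⟨algebraMap Qb (FLb (M * p)) c, hcB⟩ : T) ∈ S := by
    apply hPS _ 0 (by rw [ValuationSubring.mem_nonunits_iff, map_zero]; exact zero_lt_one)
    have h1 := nm_hasValue_sub P hcv (nm_hasValue_const P c)
    rw [sub_self] at h1
    exact h1
  have hcS : (⟨algebraMap Qb (FLb (M * p)) c, hcB⟩ : T) ∈ S := by
    have := S.sub_mem hsS hdiff
    rwa [sub_sub_cancel] at this
  -- `c` is a unit: contradiction
  have hc0 : c ≠ 0 := by
    rintro rfl
    apply hcu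
    rw [ValuationSubring.mem_nonunits_iff, map_zero]
    exact zero_lt_one
  have hci : c⁻¹ ∈ A := by
    by_contra hci
    apply hcu
    rw [ValuationSubring.mem_nonunits_iff]
    have h1 : A.valuation c ≤ 1 := (ValuationSubring.valuation_le_one_iff _ _).2 hcA
    have h2 : ¬ A.valuation c⁻¹ ≤ 1 := fun h =>
      hci ((ValuationSubring.valuation_le_one_iff _ _).1 h)
    rw [map_inv₀] at h2
    rcases lt_or_eq_of_le h1 with h3 | h3
    · exact h3
    · rw [h3, inv_one] at h2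
      exact absurd le_rfl h2
  have hciB : algebraMap Qb (FLb (M * p)) c⁻¹ ∈ scChart A y₀ := algebraMap_mem_nmChart A y₀ hci
  have h1S : (1 : T) ∈ S := by
    have := S.mul_mem_left (⟨algebraMap Qb (FLb (M * p)) c⁻¹, hciB⟩ : T) hcS
    have e : (⟨algebraMap Qb (FLb (M * p)) c⁻¹, hciB⟩ : T) *
        ⟨algebraMap Qb (FLb (M * p)) c, hcB⟩ = 1 := by
      apply Subtype.ext
      show algebraMap Qb (FLb (M * p)) c⁻¹ * algebraMap Qb (FLb (M * p)) c = 1
      rw [← map_mul, inv_mul_cancel₀ hc0, map_one]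
    rwa [e] at this
  exact hSmax.ne_top ((Ideal.eq_top_iff_one S).2 h1S)

end Main

/-- **[CRT]** the glued ring of the charts `j`, `j⁻¹` of the nodal model of `X₀(M p)`, from the
local API [DVR] + [XY]. -/
theorem nmCrt (M p : ℕ) [NeZero M] [NeZero p] (hDo : NmDvrOoStatement M p)
    (hDz : NmDvrZeroStatement M p) (hXY : NmCrossStatement M p) : NmCrtStatement M p := by
  intro A h y₀ hy₀ hoo h0 x y hpair
  have H : NmBase M p A := nmBase_of_soft (Fermat.Agent.H20.ORD.nmSoft M p) h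
  exact crt_global H hDo hDz hXY hy₀ hoo h0 x y hpair

end Fermat.Agent.H17.ORD
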