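/-
P-ORD (S33), block B1-ANCHOR, part [CRT] (helper17): the two consumer Props of helper37's
`nmAnchor` from `Fermat.Agent.H17.ORD.nmCrt` :

* `nmCrtJ    : [DVR]_∞ → [DVR]_0 → [XY] → Fermat.Agent.H37.ORD.NmCrtStatement M p`    (chart `j`);
* `nmCrtJInv : [DVR]_∞ → [DVR]_0 → [XY] → Fermat.Agent.H37.ORD.NmCrtInvStatement M p` (chart `j⁻¹`).
-/
import Fermat.Agent.H17.ORD.CrtGlobal
import Fermat.Agent.H37.ORD.AnchorNm

set_option autoImplicit false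
set_option linter.unusedSectionVars false

noncomputable section

open AlgebraicCurve ModularCurve

namespace Fermat.Agent.H17.ORD

open Fermat.Agent.H72.FF Fermat.Agent.H18.ORD Fermat.Agent.H66 Fermat.Agent.H84.ORD

/-- **[CRT], chart `j`**, in the shape consumed by `Fermat.Agent.H37.ORD.nmAnchor`. -/
theorem nmCrtJ (M p : ℕ) [NeZero M] [NeZero p] (hDo : NmDvrOoStatement M p)
    (hDz : NmDvrZeroStatement M p) (hXY : NmCrossStatement M p) :
    Fermat.Agent.H37.ORD.NmCrtStatement M p := by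
  intro A h htot hj hj0 a b ha hb hg
  refine nmCrt M p hDo hDz hXY A h (nmJ (M * p)) (Or.inl rfl) hj hj0 a b ⟨?_, ?_, ?_⟩
  · intro Q hQ
    exact Fermat.Agent.H23.mem_of_ord_nonneg Q (ha Q (Fermat.Agent.H23.ord_nonneg_of_mem Q hQ))
  · intro Q hQ
    exact Fermat.Agent.H23.mem_of_ord_nonneg Q (hb Q (Fermat.Agent.H23.ord_nonneg_of_mem Q hQ))
  · intro ν _
    exact hg ν

/-- **[CRT], chart `j⁻¹`**, in the shape consumed by `Fermat.Agent.H37.ORD.nmAnchor`. -/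
theorem nmCrtJInv (M p : ℕ) [NeZero M] [NeZero p] (hDo : NmDvrOoStatement M p)
    (hDz : NmDvrZeroStatement M p) (hXY : NmCrossStatement M p) :
    Fermat.Agent.H37.ORD.NmCrtInvStatement M p := by
  intro A h htot hj hj0 a b ha hb hg
  have H : NmBase M p A := nmBase_of_soft (Fermat.Agent.H20.ORD.nmSoft M p) h
  have hji : (nmJ (M * p))⁻¹ ∈ gaussOBar (M * p) A := H.oo.jinv_mem
  have hji0 : (nmJ (M * p))⁻¹ ∈ nmV0 M p h.cop A := H.zero.jinv_mem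
  have e1 : nmRedOo (M * p) A ⟨(nmJ (M * p))⁻¹, hji⟩ =
      (nmRedOo (M * p) A ⟨nmJ (M * p), hj⟩)⁻¹ := Fermat.Agent.H37.ORD.CompSoft_red_jinv H.oo
  have e2 : nmRed0 M p h.cop A ⟨(nmJ (M * p))⁻¹, hji0⟩ =
      (nmRed0 M p h.cop A ⟨nmJ (M * p), hj0⟩)⁻¹ := Fermat.Agent.H37.ORD.CompSoft_red_jinv H.zero
  refine nmCrt M p hDo hDz hXY A h (nmJ (M * p))⁻¹ (Or.inr rfl) hji hji0 a b ⟨?_, ?_, ?_⟩
  · intro Q hQ
    rw [e1] at hQ
    have h1 := Fermat.Agent.H23.ord_nonneg_of_mem Q hQ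
    rw [Place.ord_inv] at h1
    have h2 : Q.ord (nmRedOo (M * p) A ⟨nmJ (M * p), hj⟩) ≤ 0 := by omega
    exact Fermat.Agent.H23.mem_of_ord_nonneg Q (ha Q h2)
  · intro Q hQ
    rw [e2] at hQ
    have h1 := Fermat.Agent.H23.ord_nonneg_of_mem Q hQ
    rw [Place.ord_inv] at h1
    have h2 : Q.ord (nmRed0 M p h.cop A ⟨nmJ (M * p), hj0⟩) ≤ 0 := by omega
    exact Fermat.Agent.H23.mem_of_ord_nonneg Q (hb Q h2)
  · intro ν hν
    rw [e1] at hν
    have h1 := Fermat.Agent.H23.ord_nonneg_of_mem _ hν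
    rw [Place.ord_inv] at h1
    have h2 : (nmNOo M p h.cop A ν).ord (nmRedOo (M * p) A ⟨nmJ (M * p), hj⟩) ≤ 0 := by omega
    exact hg ν h2

end Fermat.Agent.H17.ORD
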