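/-
P-ORD (helper17), block B1-LIFT, step 1: the LIFT OF GLUED PAIRS for the two charts of the
model of `X₀(M q)` over an unramified base (findings #522 (L3), (L8), #525 (1), #550).

`A₀` a discrete valuation ring of the number field `K₁` in which `q` is not a unit,
`E = ModelField K₁ (M q)`, `x = j`, `B = chartClosure A₀ E x`, `B' = chartClosure A₀ E x⁻¹`,
`V_∞ = vInf`, `V_0 = vZero W` the two vertical valuations (helper7).

* `chartClosure_sat` (abstract): `B ∩ ϖ C = ϖ B` (`C` the Gauss closure): if `c ∈ C(x)` and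
  `ϖ c ∈ B(x)` then `c ∈ B(x)`  (helper91's saturation lemma).
* `modelPiB` **(L3)**: `B ∩ 𝔪_∞ ∩ 𝔪_0 = ϖ B`.
* `modelLift` **(LIFT)**: there is `m` such that for all `n ≥ m - 1`: if `f ∈ B`, `f' ∈ B'` and
  `f - xⁿ f' ∈ 𝔪_∞ ∩ 𝔪_0` (the two sections agree on the overlap of the special fibres of
  the two charts), then there is `F ∈ B ∩ xⁿ B'` with `F ≡ f mod ϖ B`, `x⁻ⁿ F ≡ f' mod ϖ B'`.
-/
import Fermat.Agent.H17.ORD.ChartLiftModel
import Fermat.Agent.H7.SS2.Vertical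
import Fermat.Agent.H91.Purity
import Fermat.Agent.H91.KLNorm.Inst
import Fermat.Agent.H87.KL.KumGauss
import Fermat.Agent.H89.KLGauss
import Fermat.Agent.H58.KL.ModelTr
import Fermat.Agent.H57.SS.ModelFinite

set_option autoImplicit false
set_option synthInstance.maxHeartbeats 400000
set_option maxHeartbeats 1000000
set_option linter.unusedSectionVars false
set_option linter.style.haveILetI false

noncomputable section

namespace Fermat.Agent.H17.ORD

open Polynomial ModularCurve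
open Fermat.Agent.H22.KL Fermat.Agent.H82.SS Fermat.Agent.H7.SS2 Fermat.Agent.H11.SS2
open Fermat.Agent.H91 Fermat.Agent.H91.KLNorm

/-- the maximal ideal of a valuation ring is an ideal -/
theorem mul_mem_nonunits_of_mem {F : Type*} [Field F] (V : ValuationSubring F) {a b : F}
    (ha : a ∈ V.nonunits) (hb : b ∈ V) : b * a ∈ V.nonunits := by
  rw [ValuationSubring.mem_nonunits_iff] at ha ⊢
  have hb' := (ValuationSubring.valuation_le_one_iff V b).2 hb
  calc V.valuation (b * a) = V.valuation a * V.valuation b := by rw [map_mul, mul_comm]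
    _ ≤ V.valuation a * 1 := by gcongr
    _ < 1 := by rwa [mul_one]

section abstract

variable {A : Type} [CommRing A] [IsDomain A] [IsDiscreteValuationRing A]
  {E : Type} [Field E] [Algebra A E] [CharZero E]

/-- **`B(x) ∩ ϖ C(x) = ϖ B(x)`**: an element `c` of the Gauss closure with `ϖ c` integral over
`A[x]` is integral over `A[x]`. -/
theorem chartClosure_sat {ϖ : A} (hϖ : Irreducible ϖ) {x : E} (hx : Transcendental A x)
    (c : E) (hc : c ∈ gaussClosure A E ϖ x)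
    (hz : algebraMap A E ϖ * c ∈ chartClosure A E x) : c ∈ chartClosure A E x := by
  letI := polyAlgE A E x
  letI := polyAlgK A E x
  haveI := polyAlg_isScalarTower A E x
  haveI hFR := polyAlg_isFractionRing A E hx
  have hp : Prime (C ϖ : A[X]) := prime_C_of_irreducible A hϖ
  obtain ⟨H, hH, hint⟩ := (Fermat.Agent.H87.KL.mem_gaussClosure_iff hx ϖ c).1 hc
  have h1 : IsIntegral A[X] (H • c) := by
    rw [Algebra.smul_def]
    exact hint
  have h2 : IsIntegral A[X] ((C ϖ : A[X]) • c) := by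
    rw [Algebra.smul_def, polyAlgE_algebraMap, aeval_C]
    exact (Fermat.Agent.H87.KL.mem_chartClosure_iff x _).1 hz
  have h3 : IsIntegral A[X] c :=
    isIntegral_of_smul_of_smul (↥(chartField A E x)) hp hH h2 h1
  exact (Fermat.Agent.H87.KL.mem_chartClosure_iff x c).2 h3

end abstract

section Level

variable (M q : ℕ) [NeZero M] [NeZero q]
  (K₁ : Type) [Field K₁] [Algebra ℚ K₁] [FiniteDimensional ℚ K₁]
  (A₀ : Type) [CommRing A₀] [IsDomain A₀] [IsDiscreteValuationRing A₀]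
  [Algebra A₀ K₁] [IsFractionRing A₀ K₁]
  [Algebra A₀ (ModelField K₁ (M * q))] [IsScalarTower A₀ K₁ (ModelField K₁ (M * q))]
  (hqA : ¬ IsUnit ((q : ℕ) : A₀)) (ϖ : A₀) (hϖ : Irreducible ϖ)
  (x : ModelField K₁ (M * q)) (hx : (x : LaurentSeries K₁) = coeffEmb K₁ jq)
  (W : ModelField K₁ (M * q) ≃ₐ[K₁] ModelField K₁ (M * q)) (hW : IsAtkinLehnerModel K₁ M q W)
  (hq : q.Prime) (hqM : ¬ q ∣ M)

include hqA hϖ hx hW hq hqM

/-- **(L3)** `B(j) ∩ 𝔪_∞ ∩ 𝔪_0 = ϖ B(j)`. -/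
theorem modelPiB (z : ModelField K₁ (M * q))
    (hz : z ∈ chartClosure A₀ (ModelField K₁ (M * q)) x)
    (h1 : z ∈ (vInf K₁ A₀ (M * q)).nonunits) (h2 : z ∈ (vZero K₁ A₀ (M * q) W).nonunits) :
    ∃ c ∈ chartClosure A₀ (ModelField K₁ (M * q)) x,
      z = algebraMap A₀ (ModelField K₁ (M * q)) ϖ * c := by
  haveI : CharZero K₁ := charZero_of_injective_algebraMap (algebraMap ℚ K₁).injective
  haveI : CharZero (ModelField K₁ (M * q)) :=
    charZero_of_injective_algebraMap (algebraMap K₁ (ModelField K₁ (M * q))).injective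
  have hxtr : Transcendental A₀ x :=
    Fermat.Agent.H58.modelTranscendental_jq (M * q) K₁ A₀ x hx
  obtain ⟨c, hc, rfl⟩ :=
    (piDvdSet_iff_vInf_vZero M q K₁ A₀ hqA ϖ hϖ x hx W hW hq hqM z).2 ⟨h1, h2⟩
  exact ⟨c, chartClosure_sat hϖ hxtr c hc hz, rfl⟩

/-- `B(j) ⊆ V_∞ ∩ V_0`. -/
theorem chartClosure_le_vInf_vZero (z : ModelField K₁ (M * q))
    (hz : z ∈ chartClosure A₀ (ModelField K₁ (M * q)) x) :
    z ∈ vInf K₁ A₀ (M * q) ∧ z ∈ vZero K₁ A₀ (M * q) W := by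
  have hxtr : Transcendental A₀ x :=
    Fermat.Agent.H58.modelTranscendental_jq (M * q) K₁ A₀ x hx
  exact mem_vInf_vZero_of_mem_gaussClosure M q K₁ A₀ hqA ϖ hϖ x hx W hW z
    (Fermat.Agent.H89.klg_chartClosure_le_gaussClosure hϖ hxtr hz)

/-- **LIFT of glued pairs** in the model of `X₀(M q)` over an unramified base: there is `m`
such that for `n ≥ m - 1` two sections `f ∈ B(j)`, `f' ∈ B(1/j)` with
`f ≡ jⁿ f'` modulo `𝔪_∞ ∩ 𝔪_0` glue to `F ∈ B(j) ∩ jⁿ B(1/j)` with `F ≡ f mod ϖ B(j)` and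
`j⁻ⁿ F ≡ f' mod ϖ B(1/j)`. -/
theorem modelLift :
    ∃ m : ℕ, ∀ n : ℕ, m ≤ n + 1 → ∀ f f' : ModelField K₁ (M * q),
      f ∈ chartClosure A₀ (ModelField K₁ (M * q)) x →
      f' ∈ chartClosure A₀ (ModelField K₁ (M * q)) x⁻¹ →
      f - x ^ n * f' ∈ (vInf K₁ A₀ (M * q)).nonunits →
      f - x ^ n * f' ∈ (vZero K₁ A₀ (M * q) W).nonunits →
      ∃ F ∈ chartClosure A₀ (ModelField K₁ (M * q)) x,
        x⁻¹ ^ n * F ∈ chartClosure A₀ (ModelField K₁ (M * q)) x⁻¹ ∧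
        (∃ c ∈ chartClosure A₀ (ModelField K₁ (M * q)) x,
          F - f = algebraMap A₀ (ModelField K₁ (M * q)) ϖ * c) ∧
        ∃ c' ∈ chartClosure A₀ (ModelField K₁ (M * q)) x⁻¹,
          x⁻¹ ^ n * F - f' = algebraMap A₀ (ModelField K₁ (M * q)) ϖ * c' := by
  haveI : CharZero K₁ := charZero_of_injective_algebraMap (algebraMap ℚ K₁).injective
  haveI : CharZero (ModelField K₁ (M * q)) :=
    charZero_of_injective_algebraMap (algebraMap K₁ (ModelField K₁ (M * q))).injective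
  have hxtr : Transcendental A₀ x :=
    Fermat.Agent.H58.modelTranscendental_jq (M * q) K₁ A₀ x hx
  have hx0 : x ≠ 0 := by
    rintro rfl
    exact hxtr isAlgebraic_zero
  have hfin := Fermat.Agent.H57.SS.modelFinite (M * q) K₁ A₀ x hx
  obtain ⟨m, hm⟩ := chartClosure_lift_pair (A := A₀) hxtr hfin
  refine ⟨m, fun n hn f f' hf hf' h1 h2 => ?_⟩
  -- `xᵏ f' ∈ B(j)`
  obtain ⟨k, hk⟩ := Fermat.Agent.H85.klc_overlap (A := A₀) (inv_ne_zero hx0) f' hf'
  rw [inv_inv] at hk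
  have hxB : x ∈ chartClosure A₀ (ModelField K₁ (M * q)) x := self_mem_chartClosure x
  obtain ⟨hxV, hxV0⟩ := chartClosure_le_vInf_vZero M q K₁ A₀ hqA ϖ hϖ x hx W hW hq hqM x hxB
  -- `z = xᵏ (f - xⁿ f') ∈ B(j) ∩ 𝔪_∞ ∩ 𝔪_0`
  have hzB : x ^ k * (f - x ^ n * f') ∈ chartClosure A₀ (ModelField K₁ (M * q)) x := by
    have e : x ^ k * (f - x ^ n * f') = x ^ k * f - x ^ n * (x ^ k * f') := by ring
    rw [e]
    exact Subalgebra.sub_mem _ (Subalgebra.mul_mem _ (Subalgebra.pow_mem _ hxB k) hf)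
      (Subalgebra.mul_mem _ (Subalgebra.pow_mem _ hxB n) hk)
  have hz1 : x ^ k * (f - x ^ n * f') ∈ (vInf K₁ A₀ (M * q)).nonunits := by
    exact mul_mem_nonunits_of_mem _ h1 (pow_mem hxV k)
  have hz2 : x ^ k * (f - x ^ n * f') ∈ (vZero K₁ A₀ (M * q) W).nonunits := by
    exact mul_mem_nonunits_of_mem _ h2 (pow_mem hxV0 k)
  obtain ⟨c, hc, hzc⟩ := modelPiB M q K₁ A₀ hqA ϖ hϖ x hx W hW hq hqM _ hzB hz1 hz2
  -- `t = c / xᵏ`
  have hxx : x⁻¹ ^ k * x ^ k = 1 := by rw [← mul_pow, inv_mul_cancel₀ hx0, one_pow]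
  have hxx' : x ^ k * x⁻¹ ^ k = 1 := by rw [← mul_pow, mul_inv_cancel₀ hx0, one_pow]
  have ht : x ^ k * (x⁻¹ ^ k * c) ∈ chartClosure A₀ (ModelField K₁ (M * q)) x := by
    rw [← mul_assoc, hxx', one_mul]
    exact hc
  have hrel : f - x ^ n * f' = algebraMap A₀ (ModelField K₁ (M * q)) ϖ * (x⁻¹ ^ k * c) := by
    calc f - x ^ n * f' = (x⁻¹ ^ k * x ^ k) * (f - x ^ n * f') := by rw [hxx, one_mul]
      _ = x⁻¹ ^ k * (x ^ k * (f - x ^ n * f')) := by ring
      _ = x⁻¹ ^ k * (algebraMap A₀ (ModelField K₁ (M * q)) ϖ * c) := by rw [hzc]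
      _ = algebraMap A₀ (ModelField K₁ (M * q)) ϖ * (x⁻¹ ^ k * c) := by ring
  exact hm n hn ϖ f f' (x⁻¹ ^ k * c) k hf hf' ht hrel

end Level

end Fermat.Agent.H17.ORD
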